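import Fermat.Agent.Flat.Kummer.Rel
import Fermat.Agent.Flat.Kummer.OfChar
import Fermat.Agent.ES.Forms.Multiplier
import Fermat.Agent.Curve.Lift.Twelve

/-!
# Roots of functions with divisible divisor have parabolic multipliers

A function on `X₀(N)` with divisor `n D`, effective away from the poles of `j`, whose series has
an `n`-th root, is the `n`-th power of a function with parabolic multiplier.
-/

set_option autoImplicit false

open UpperHalfPlane hiding I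
open Filter Topology AlgebraicCurve
open CongruenceSubgroup (Gamma Gamma0)
open scoped MatrixGroups Manifold
open ModularCurve (qExpand)

noncomputable section

namespace FermatAgent.BAD.Lift

open FermatAgent.ES (act act_one act_mul act_mulFun parGroup IsParChar)
open FermatAgent.Curve (HasLoc GenCoord genCoord_qw qw jField jElt toJField JPoly evF emb rotate
  locCoord_qw coeff_rotate rotate_one qw_mul_pow)
open FermatAgent.Mazur (lsC regSub)

attribute [local instance] Mazur.embAlg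

local notation "Qb" => AlgebraicClosure ℚ

/-- The rotation of `q^(1/w)` under translation by one. -/
def zetaW (w : ℕ) : ℂ := Complex.exp (2 * Real.pi * Complex.I / w)

theorem isPrimitiveRoot_zetaW (w : ℕ) [NeZero w] : IsPrimitiveRoot (zetaW w) w :=
  Complex.isPrimitiveRoot_exp w (NeZero.ne w)

theorem norm_zetaW_zpow (w : ℕ) [NeZero w] (h : ℤ) : ‖zetaW w ^ h‖ = 1 := by
  rw [norm_zpow, (isPrimitiveRoot_zetaW w).norm'_eq_one (NeZero.ne w), one_zpow]

theorem zetaW_zpow_ne_zero (w : ℕ) (h : ℤ) : zetaW w ^ h ≠ 0 :=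
  zpow_ne_zero _ (Complex.exp_ne_zero _)

theorem qw_T_zpow_smul (w : ℕ) [NeZero w] (h : ℤ) (τ : ℍ) :
    qw (w : ℝ) ((ModularGroup.T ^ h : SL(2, ℤ)) • τ) = zetaW w ^ h * qw (w : ℝ) τ := by
  have hw : (w : ℂ) ≠ 0 := Nat.cast_ne_zero.2 (NeZero.ne w)
  rw [modular_T_zpow_smul, qw, qw, coe_vadd, zetaW, Function.Periodic.qParam,
    Function.Periodic.qParam, ← Complex.exp_int_mul, ← Complex.exp_add]
  congr 1
  push_cast
  field_simp

/-- A periodic regular function has an expansion. -/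
theorem exists_hasLoc_periodic (w : ℕ) [NeZero w] {g : ℍ → ℂ} (hg : g ∈ regSub)
    (hper : ∀ τ, g ((ModularGroup.T ^ (w : ℤ) : SL(2, ℤ)) • τ) = g τ) :
    ∃ S, HasLoc (qw (w : ℝ)) g S := by
  obtain ⟨hmd, B, hB⟩ := hg
  have hw0 : (0 : ℝ) < w := Nat.cast_pos.2 (Nat.pos_of_ne_zero (NeZero.ne w))
  refine ⟨_, Curve.hasLoc_qParam (f := g) hw0 (w * B)
    (Curve.periodic_comp_ofComplex_of_vadd fun τ => ?_)
    (((Curve.mdiff_qw (w : ℝ)).pow (w * B)).mul hmd)
    ?_⟩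
  · have e : ((w : ℝ) +ᵥ τ) = (ModularGroup.T ^ (w : ℤ) : SL(2, ℤ)) • τ := by
      rw [modular_T_zpow_smul]; simp
    show qw (w : ℝ) ((w : ℝ) +ᵥ τ) ^ (w * B) * g ((w : ℝ) +ᵥ τ) =
      qw (w : ℝ) τ ^ (w * B) * g τ
    rw [e, hper, qw_T_zpow_smul, zpow_natCast, (isPrimitiveRoot_zetaW w).pow_eq_one, one_mul]
  · refine hB.congr_left fun τ => ?_
    show qw 1 τ ^ B * g τ = qw (w : ℝ) τ ^ (w * B) * g τ
    rw [pow_mul, ← Curve.qw_eq_pow]

variable {N : ℕ} [NeZero N]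

/-- Stabilising translations rotate the embedding at a cusp. -/
theorem rotate_emb {δ : SL(2, ℤ)} {h : ℤ} (hmem : δ * ModularGroup.T ^ h * δ⁻¹ ∈ Gamma0 N)
    (z : jField Qb N) :
    rotate (zetaW_zpow_ne_zero N h) (emb (K := Qb) (genCoord_qw N) δ z) =
      emb (K := Qb) (genCoord_qw N) δ z := by
  have key :
      ∀ P, rotate (zetaW_zpow_ne_zero N h) (emb (K := Qb) (genCoord_qw N) δ (toJField Qb N P)) =
      emb (K := Qb) (genCoord_qw N) δ (toJField Qb N P) := fun P => by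
    rw [Curve.emb_toJField]
    have h2 := (Curve.hasLoc_phi (genCoord_qw N) δ P).pullback (t' := qw (N : ℕ))
      (fun τ => (ModularGroup.T ^ h : SL(2, ℤ)) • τ) (norm_zetaW_zpow N h)
      (zetaW_zpow_ne_zero N h) 1
      fun τ => by rw [pow_one]; exact qw_T_zpow_smul N h τ
    rw [ModularCurve.qExpand_one_apply] at h2
    refine (h2.congr_fun fun τ => ?_).unique (genCoord_qw N).coord
      (Curve.hasLoc_phi (genCoord_qw N) δ P)
    show evF Qb N P (δ • τ) = evF Qb N P (δ • (ModularGroup.T ^ h : SL(2, ℤ)) • τ)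
    refine Eq.symm ?_
    rw [← mul_smul, show δ * ModularGroup.T ^ h = δ * ModularGroup.T ^ h * δ⁻¹ * δ by group,
      mul_smul, Curve.evF_gamma0 hmem]
  obtain ⟨P, Q, rfl⟩ := Curve.exists_eq_div Qb N z
  rw [map_div₀, map_div₀, key, key]

/-- At every cusp `j` has order `-N` in the coordinate of width `N`. -/
theorem emb_jElt_order (δ : SL(2, ℤ)) :
    (emb (K := Qb) (genCoord_qw N) δ (jElt Qb N)).order = -(N : ℤ) := by
  obtain ⟨S, hS, hSo⟩ := Curve.exists_series_infty N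
  have hX : ∀ τ : ℍ, evF Qb N (MvPolynomial.X (Curve.JIdx.one N)) (δ • τ) = Curve.jFun τ :=
    fun τ => by
      rw [evF, MvPolynomial.aeval_X, Curve.jGenF,
        show Curve.scalePt (Curve.JIdx.one N : ℕ) (δ • τ) = δ • τ from
          UpperHalfPlane.ext (by rw [Curve.coe_scalePt]; simp [Curve.JIdx.one]), Curve.jFun_smul]
  rw [jElt, Curve.emb_toJField,
    Curve.phi_eq_of_hasLoc (genCoord_qw N) δ (hS.congr_fun hX), hSo]

/-- The multiplier of a root of a function with divisor divisible by `n` kills the stabilisers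
of the cusps. -/
theorem multiplier_cusp_eq_one {n : ℕ} [NeZero n] {f : jField Qb N}
    (hdiv : ∀ v : Place Qb (jField Qb N), (n : ℤ) ∣ v.ord f) {g : ℍ → ℂ}
    (hg0 : g ≠ 0) (hreg : ∀ k, act k g ∈ regSub) {φ : Gamma0 N →* ℂˣ} (hφn : φ ^ n = 1)
    (hm : ∀ γ : Gamma0 N, ∀ τ, g ((γ : SL(2, ℤ)) • τ) = φ γ * g τ)
    (hl : HasLoc (qw 1) (g ^ n) (lsC (f : LaurentSeries Qb)))
    {δ : SL(2, ℤ)} {h : ℤ} (hmem : δ * ModularGroup.T ^ h * δ⁻¹ ∈ Gamma0 N) :
    φ ⟨_, hmem⟩ = 1 := by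
  -- translation at the cusp
  have hT : ∀ (i : ℤ) (hi : δ * ModularGroup.T ^ i * δ⁻¹ ∈ Gamma0 N) (τ : ℍ),
      act δ g ((ModularGroup.T ^ i : SL(2, ℤ)) • τ) = φ ⟨_, hi⟩ * act δ g τ := fun i hi τ => by
    have h1 := hm ⟨_, hi⟩ (δ • τ)
    rw [← mul_smul, inv_mul_cancel_right, mul_smul] at h1
    exact h1
  have : NeZero (n * N) := ⟨mul_ne_zero (NeZero.ne n) (NeZero.ne N)⟩
  have hNmem : δ * ModularGroup.T ^ (N : ℤ) * δ⁻¹ ∈ Gamma0 N := by
    refine (ES.goodLevel_Gamma0 N).gamma_le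
      ((CongruenceSubgroup.Gamma_normal N).conj_mem _ ?_ δ)
    rw [zpow_natCast, CongruenceSubgroup.Gamma_mem, ES.T_pow_coe]; simp
  have hper : ∀ τ, act δ g ((ModularGroup.T ^ ((n * N : ℕ) : ℤ) : SL(2, ℤ)) • τ) = act δ g τ :=
    fun τ => by
      have key : ∀ (i : ℕ) (τ : ℍ),
          act δ g (((ModularGroup.T ^ (N : ℤ)) ^ i : SL(2, ℤ)) • τ) =
            (φ ⟨_, hNmem⟩ : ℂ) ^ i * act δ g τ := fun i => by
        induction i with
        | zero => intro τ; simp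
        | succ i ih =>
          intro τ
          rw [pow_succ, mul_smul, ih, hT _ hNmem, pow_succ]
          ring
      rw [show ((n * N : ℕ) : ℤ) = (N : ℤ) * (n : ℤ) by push_cast; ring, zpow_mul, zpow_natCast,
        key, ← Units.val_pow_eq_pow_val, ← MonoidHom.pow_apply, hφn, MonoidHom.one_apply,
        Units.val_one, one_mul]
  obtain ⟨S, hS⟩ := exists_hasLoc_periodic (n * N) (hreg δ) hper
  -- the series of the `n`-th power
  set σ := emb (K := Qb) (genCoord_qw N) δ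
  have hperN : ∀ τ, act δ (g ^ n) ((ModularGroup.T ^ (N : ℤ) : SL(2, ℤ)) • τ) =
      act δ (g ^ n) τ := fun τ => by
    show (act δ g ((ModularGroup.T ^ (N : ℤ) : SL(2, ℤ)) • τ)) ^ n = (act δ g τ) ^ n
    rw [hT _ hNmem, mul_pow, ← Units.val_pow_eq_pow_val, ← MonoidHom.pow_apply, hφn,
      MonoidHom.one_apply, Units.val_one, one_mul]
  obtain ⟨P, hP⟩ := exists_hasLoc_periodic N (pow_mem (hreg δ) n) hperN
  have hσ : σ f = P := Flat.Kummer.emb_eq_of_hasLoc hl (genCoord_qw N) δ hP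
  have hsp : HasLoc (qw ((n * N : ℕ) : ℝ)) (act δ (g ^ n)) (qExpand ℂ n P) := by
    have h1 := hP.pullback (t' := qw ((n * N : ℕ) : ℝ)) id norm_one one_ne_zero n
      fun τ => by rw [one_mul]; exact qw_mul_pow n N τ
    rwa [rotate_one] at h1
  have hcoord := locCoord_qw (w := ((n * N : ℕ) : ℝ))
    (Nat.cast_pos.2 (Nat.pos_of_ne_zero (NeZero.ne (n * N))))
  have hpow : S ^ n = qExpand ℂ n P := (hS.pow n).unique hcoord hsp
  have hgδ : act δ g ≠ 0 := PSEMI.act_ne_zero hg0 δ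
  have hS0 : S ≠ 0 := fun h0 => hgδ (HasLoc.eq_zero hcoord (h0 ▸ hS))
  have hP0 : P ≠ 0 := fun h0 => pow_ne_zero n hS0 (hpow.trans (by rw [h0, map_zero]))
  have hord : S.order = P.order := by
    have h1 := congrArg HahnSeries.order hpow
    rw [Curve.order_pow, Curve.Red.order_qExpand n P hP0] at h1
    exact mul_left_cancel₀ (Nat.cast_ne_zero.2 (NeZero.ne n)) h1
  -- the multiplier is the rotation of the leading term
  have hrot : rotate (zetaW_zpow_ne_zero (n * N) h) S =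
      HahnSeries.C ((φ ⟨_, hmem⟩ : ℂˣ) : ℂ) * S := by
    have h2 := hS.pullback (t' := qw ((n * N : ℕ) : ℝ))
      (fun τ => (ModularGroup.T ^ h : SL(2, ℤ)) • τ) (norm_zetaW_zpow (n * N) h)
      (zetaW_zpow_ne_zero (n * N) h) 1
      fun τ => by rw [pow_one]; exact qw_T_zpow_smul (n * N) h τ
    rw [ModularCurve.qExpand_one_apply] at h2
    exact h2.unique hcoord (((HasLoc.const _).mul hS).congr_fun fun τ => hT h hmem τ)
  have hu : (zetaW (n * N) ^ h) ^ S.order = ((φ ⟨_, hmem⟩ : ℂˣ) : ℂ) := by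
    have h1 := congrArg (fun s : LaurentSeries ℂ => s.coeff S.order) hrot
    simp only [coeff_rotate, HahnSeries.C_mul_eq_smul, HahnSeries.coeff_smul, smul_eq_mul] at h1
    exact mul_right_cancel₀ (by rwa [Ne, HahnSeries.coeff_order_eq_zero]) h1
  -- the order at the cusp
  set x : jField Qb N := (jElt Qb N)⁻¹
  have hxo : 0 < (σ x).order := by
    have hj := emb_jElt_order (N := N) δ
    have hne : σ (jElt Qb N) ≠ 0 := fun h0 => by
      rw [h0, HahnSeries.order_zero] at hj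
      have := NeZero.ne N; omega
    rw [map_inv₀, Curve.order_inv hne, hj, neg_neg]
    exact_mod_cast Nat.pos_of_ne_zero (NeZero.ne N)
  obtain ⟨t, ht0, ht⟩ := Curve.exists_ord_eq_one (Curve.centre σ hxo)
  set k := (σ t).order
  have hNk : (N : ℤ) ∣ h * k := by
    have h1 := congrArg (fun s : LaurentSeries ℂ => s.coeff k) (rotate_emb hmem t)
    simp only [coeff_rotate] at h1
    have hc : (σ t).coeff k ≠ 0 := by
      rw [Ne, HahnSeries.coeff_order_eq_zero]; exact (_root_.map_ne_zero σ).2 ht0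
    have h3 : (zetaW N ^ h) ^ k = 1 := mul_right_cancel₀ hc (h1.trans (one_mul _).symm)
    rw [← zpow_mul] at h3
    exact ((isPrimitiveRoot_zetaW N).zpow_eq_one_iff_dvd _).1 h3
  obtain ⟨e, he⟩ := hdiv (Curve.centre σ hxo)
  have ho : S.order = k * ((n : ℤ) * e) := by
    rw [hord, ← hσ, Curve.order_apply σ hxo ht f, he]
  refine Units.ext ?_
  rw [Units.val_one, ← hu, ← zpow_mul, (isPrimitiveRoot_zetaW (n * N)).zpow_eq_one_iff_dvd, ho,
    show h * (k * ((n : ℤ) * e)) = (n : ℤ) * (h * k) * e by ring, Nat.cast_mul]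
  exact Dvd.dvd.mul_right (mul_dvd_mul_left _ hNk) _

/-- Multipliers of roots of functions with divisible divisor are parabolic. -/
theorem isParChar_of_root {n : ℕ} [NeZero n] {f : jField Qb N}
    {D : Divisor Qb (jField Qb N)} (hdiv : Curve.divisorOf f = n • D) {φ : Gamma0 N →* ℂˣ}
    (hφn : φ ^ n = 1) {g : ℍ → ℂ} (hg0 : g ≠ 0) (hreg : ∀ k, act k g ∈ regSub)
    (hm : ∀ γ : Gamma0 N, ∀ τ, g ((γ : SL(2, ℤ)) • τ) = φ γ * g τ)
    (hl : HasLoc (qw 1) (g ^ n) (lsC (f : LaurentSeries Qb))) : IsParChar (Gamma0 N) φ := by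
  have hdvd : ∀ v : Place Qb (jField Qb N), (n : ℤ) ∣ v.ord f := fun v => by
    have h1 := DFunLike.congr_fun hdiv v
    rw [Curve.divisorOf_apply, Finsupp.smul_apply, nsmul_eq_mul] at h1
    exact ⟨_, h1⟩
  obtain ⟨τ₀, hτ₀⟩ := Function.ne_iff.1 hg0
  intro γ htr
  obtain ⟨δ, h, hc⟩ := ES.exists_conj_T_of_trace htr
  have hneg : (-1 : SL(2, ℤ)) ∈ Gamma0 N := by
    rw [CongruenceSubgroup.Gamma0_mem]; simp
  have hmem : δ * ModularGroup.T ^ h * δ⁻¹ ∈ Gamma0 N := by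
    rcases hc with e | e
    · exact e ▸ γ.2
    · rw [← e, show -(γ : SL(2, ℤ)) = -1 * γ by simp]
      exact mul_mem hneg γ.2
  rw [← multiplier_cusp_eq_one hdvd hg0 hreg hφn hm hl hmem]
  refine Units.ext (mul_right_cancel₀ hτ₀ ?_)
  rw [← hm, ← hm]
  rcases hc with e | e
  · show g ((γ : SL(2, ℤ)) • τ₀) = g ((δ * ModularGroup.T ^ h * δ⁻¹) • τ₀)
    rw [e]
  · show g ((γ : SL(2, ℤ)) • τ₀) = g ((δ * ModularGroup.T ^ h * δ⁻¹) • τ₀)
    rw [← e]
    exact (congrFun (ES.act_neg_one g) ((γ : SL(2, ℤ)) • τ₀)).symm.trans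
      (congrArg g (by rw [← mul_smul, neg_one_mul]))

/-- **Roots have parabolic multipliers.** -/
theorem exists_parabolic_root {n : ℕ} [NeZero n] {f : jField Qb N} (hf : f ≠ 0)
    {D : Divisor Qb (jField Qb N)} (hdiv : Curve.divisorOf f = n • D)
    (hpos : ∀ v : Place Qb (jField Qb N), 0 ≤ v.ord (jElt Qb N) → 0 ≤ D v)
    {W : LaurentSeries ℂ} (hW : W ^ n = lsC (f : LaurentSeries Qb)) :
    ∃ (φ : parGroup (Gamma0 N) n) (g : ℍ → ℂ), MDiff g ∧
      (∀ γ : Gamma0 N, ∀ τ, g ((γ : SL(2, ℤ)) • τ) = (φ : Gamma0 N →* ℂˣ) γ * g τ) ∧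
      (∀ k, act k g ∈ regSub) ∧ HasLoc (qw 1) g W := by
  have hn : 0 < n := Nat.pos_of_ne_zero (NeZero.ne n)
  obtain ⟨φ, g, hφn, hg, hg0, hm, hregn, hl⟩ := Flat.Kummer.exists_multiplier_root hn hf hdiv hpos
  have hreg : ∀ k, act k g ∈ regSub := fun k =>
    Flat.Kummer.act_mem_regSub_of_pow hn hg (hregn k)
  have hpar : IsParChar (Gamma0 N) φ := isParChar_of_root hdiv hφn hg0 hreg hm hl
  -- normalise the constant
  have hT : ∀ τ, g ((ModularGroup.T ^ ((1 : ℕ) : ℤ) : SL(2, ℤ)) • τ) = g τ := fun τ => by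
    rw [Nat.cast_one, zpow_one]
    have h := hm ⟨_, Flat.Kummer.T_mem_Gamma0⟩ τ
    rw [hpar ⟨_, Flat.Kummer.T_mem_Gamma0⟩ (by
      show (((ModularGroup.T : SL(2, ℤ))) : Matrix (Fin 2) (Fin 2) ℤ).trace ^ 2 = 4
      simp [ModularGroup.coe_T, Matrix.trace_fin_two]), Units.val_one, one_mul] at h
    exact h
  obtain ⟨S, hS⟩ := exists_hasLoc_periodic 1 (act_one g ▸ hreg 1) hT
  rw [Nat.cast_one] at hS
  have hSn : S ^ n = W ^ n := ((hS.pow n).unique (locCoord_qw one_pos) hl).trans hW.symm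
  have hS0 : S ≠ 0 := fun h0 => hg0 (HasLoc.eq_zero (locCoord_qw one_pos) (h0 ▸ hS))
  have hr : (W * S⁻¹) ^ n = 1 := by
    rw [mul_pow, ← hSn, inv_pow, mul_inv_cancel₀ (pow_ne_zero n hS0)]
  have hζ := (isPrimitiveRoot_zetaW n).map_of_injective
    (f := (HahnSeries.C : ℂ →+* LaurentSeries ℂ)) HahnSeries.C_injective
  obtain ⟨i, -, hi⟩ := hζ.eq_pow_of_pow_eq_one hr
  refine ⟨⟨φ, hφn, hpar⟩, (fun _ => zetaW n ^ i) * g, mdifferentiable_const.mul hg,
    fun γ τ => ?_, fun k => ?_, ?_⟩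
  · simp only [Pi.mul_apply, hm γ τ]; ring
  · rw [act_mulFun]
    exact mul_mem ⟨mdifferentiable_const, 0, by
      simpa using! Filter.const_boundedAtFilter atImInfty (zetaW n ^ i)⟩ (hreg k)
  · have := (HasLoc.const (t := qw 1) (zetaW n ^ i)).mul hS
    rwa [map_pow, hi, mul_assoc, inv_mul_cancel₀ hS0, mul_one] at this

end FermatAgent.BAD.Lift
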