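import Fermat.Agent.BAD.Lift.Function
import Fermat.Agent.Curve.Red.Inputs
import Fermat.Agent.Curve.Lift.ResDiv
import Fermat.Agent.ES.Coeff.Residue

/-!
# The reduction of a form as a residual modular function

A form of weight `12 r` with integral algebraic expansion at a place prime to the level defines a
function in the residual function field of `X₀(N)`.
-/

set_option autoImplicit false

open UpperHalfPlane hiding I
open CongruenceSubgroup (Gamma Gamma0)
open scoped MatrixGroups ModularForm
open ModularCurve (coeffMap qExpand modularFunctionFieldFullC)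

noncomputable section

namespace FermatAgent.BAD.Lift

open FermatAgent.ES (BSub BRing SerIn HasExp HasLExp lexp lexp_eq LeadUnit UnitIn AuxLevel CPlace
  IsTwist embC)
open FermatAgent.Curve (HasLoc qw jField)
open FermatAgent.Flat.Kummer (deltaSer)
open FermatAgent.Mazur (lsC)

attribute [local instance] Mazur.embAlg

local notation "Qb" => AlgebraicClosure ℚ

variable {q : ℕ} [Fact q.Prime] (P : CPlace q)

/-- The series of the discriminant over any ring. -/
def deltaPS (R : Type*) [CommRing R] : PowerSeries R :=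
  PowerSeries.X * ModularCurve.dedekindEtaUnit.map (Int.castRingHom R)

/-- The series of the discriminant commutes with homomorphisms. -/
theorem map_deltaPS {R S : Type*} [CommRing R] [CommRing S] (f : R →+* S) :
    (deltaPS R).map f = deltaPS S := by
  rw [deltaPS, deltaPS, map_mul, PowerSeries.map_X]
  congr 1
  ext i
  simp [PowerSeries.coeff_map]

/-- The series of the discriminant at width one. -/
theorem deltaSer_one_eq :
    deltaSer 1 = HahnSeries.ofPowerSeries ℤ ℂ (deltaPS ℂ) :=
  ModularCurve.qExpand_one_apply _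

/-- The series of the discriminant is not zero. -/
theorem deltaPS_ne_zero (R : Type*) [CommRing R] [Nontrivial R] : deltaPS R ≠ 0 := fun h => by
  have h1 := congrArg (PowerSeries.coeff 1) h
  rw [deltaPS, show (1 : ℕ) = 0 + 1 from rfl, PowerSeries.coeff_succ_X_mul, map_zero,
    PowerSeries.coeff_map, PowerSeries.coeff_zero_eq_constantCoeff_apply,
    ModularCurve.constantCoeff_dedekindEtaUnit, map_one] at h1
  exact one_ne_zero h1

omit [Fact q.Prime] in
/-- An algebraic integer of the place vanishes in one residue field if and only if in the other. -/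
theorem res_resIncl_eq_zero_iff {a : P.algVal} :
    P.res (resIncl P a) = 0 ↔ IsLocalRing.residue P.algVal a = 0 := by
  rw [P.res_eq_zero_iff, IsLocalRing.residue_eq_zero_iff, IsLocalRing.mem_maximalIdeal,
    mem_nonunits_iff]
  show P.abv (embC (a : Qb)) < 1 ↔ _
  constructor
  · rintro h ⟨u, rfl⟩
    have h1 : P.abv (embC ((u : P.algVal) : Qb)) *
        P.abv (embC (((u⁻¹ : P.algValˣ) : P.algVal) : Qb)) = 1 := by
      rw [← map_mul, ← map_mul, ← MulMemClass.coe_mul, u.mul_inv, OneMemClass.coe_one,
        map_one, map_one]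
    exact h.ne (le_antisymm h.le (h1 ▸ mul_le_of_le_one_right (P.abv.nonneg _)
      (CPlace.mem_algVal.1 ((u⁻¹ : P.algValˣ) : P.algVal).2)))
  · intro h
    refine lt_of_le_of_ne (CPlace.mem_algVal.1 a.2) fun h1 => h ?_
    have hinv : ((a : Qb))⁻¹ ∈ P.algVal := by
      rw [CPlace.mem_algVal, map_inv₀, map_inv₀, h1, inv_one]
    have ha0 : (a : Qb) ≠ 0 := fun h0 => by simp [h0] at h1
    exact IsUnit.of_mul_eq_one ⟨_, hinv⟩ (Subtype.ext (mul_inv_cancel₀ ha0))

omit [Fact (Nat.Prime q)] in
/-- A series vanishes in one residue field if and only if in the other. -/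
theorem map_res_eq_zero_iff {p : PowerSeries P.algVal} :
    (p.map (resIncl P)).map P.res = 0 ↔ p.map (IsLocalRing.residue P.algVal) = 0 := by
  simp only [PowerSeries.ext_iff, PowerSeries.coeff_map, map_zero]
  exact forall_congr' fun i => res_resIncl_eq_zero_iff P

omit [Fact (Nat.Prime q)] in
/-- Congruent series over the algebraic numbers are congruent at the place of `ℂ`. -/
theorem map_res_eq_of_residue_eq {x y : PowerSeries P.algVal}
    (h : x.map (IsLocalRing.residue P.algVal) = y.map (IsLocalRing.residue P.algVal)) :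
    (x.map (resIncl P)).map P.res = (y.map (resIncl P)).map P.res := by
  rw [← sub_eq_zero, ← map_sub, ← map_sub, map_res_eq_zero_iff, map_sub, h, sub_self]

section

omit [Fact q.Prime]

theorem exists_map_resIncl {c : PowerSeries P.ring}
    (halg : ∀ e, IsAlgebraic ℚ ((PowerSeries.coeff e c : P.ring) : ℂ)) :
    ∃ cA : PowerSeries P.algVal, cA.map (resIncl P) = c := by
  choose a ha using fun e => ES.exists_embC_eq (halg e)
  refine ⟨PowerSeries.mk fun e => ⟨a e, ?_⟩, ?_⟩
  · rw [CPlace.mem_algVal, ha]
    exact (PowerSeries.coeff e c).2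
  · ext e
    rw [PowerSeries.coeff_map, PowerSeries.coeff_mk]
    exact ha e

/-- The expansion over the algebraic integers of the place, read in `ℂ`. -/
def toC : LaurentSeries P.algVal →+* LaurentSeries ℂ :=
  (lsC : LaurentSeries Qb →+* LaurentSeries ℂ).comp (coeffMap P.algVal.subtype)

/-- Reading in `ℂ` is injective. -/
theorem toC_injective : Function.Injective (toC P) := fun _ _ h => HahnSeries.ext (funext fun i =>
  Subtype.ext ((embC : Qb →ₐ[ℚ] ℂ).toRingHom.injective (congrArg (fun x => x.coeff i) h)))

/-- Reading a power series in `ℂ`. -/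
theorem toC_ofPowerSeries (p : PowerSeries P.algVal) :
    toC P (HahnSeries.ofPowerSeries ℤ P.algVal p) =
      HahnSeries.ofPowerSeries ℤ ℂ ((p.map (resIncl P)).map P.ring.subtype) := by
  rw [toC, RingHom.comp_apply, ModularCurve.coeffMap_ofPowerSeries, lsC,
    ModularCurve.coeffMap_ofPowerSeries]
  congr 1

end

variable {N : ℕ} [NeZero N]

/-- The residual function of a form, with its integral expansion. -/
theorem exists_residual_function (hqN : ¬ q ∣ N) {r : ℕ} {F : ℍ → ℂ}
    (hF : IsTwist (Gamma0 N) ((12 * r : ℕ) : ℤ) 1 F) {c : PowerSeries P.ring}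
    (hc : HasExp 1 F (c.map P.ring.subtype))
    (halg : ∀ e, IsAlgebraic ℚ ((PowerSeries.coeff e c : P.ring) : ℂ))
    (hcres : c.map P.res ≠ 0) :
    ∃ (sA : LaurentSeries P.algVal) (cA : PowerSeries P.algVal)
      (gb : modularFunctionFieldFullC (IsLocalRing.ResidueField P.algVal) N),
      coeffMap P.algVal.subtype sA ∈ jField Qb N ∧
      HasLoc (qw 1) (divDisc F r) (toC P sA) ∧
      cA.map (resIncl P) = c ∧
      sA * HahnSeries.ofPowerSeries ℤ _ (deltaPS P.algVal) ^ r =
        HahnSeries.ofPowerSeries ℤ _ cA ∧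
      coeffMap (IsLocalRing.residue P.algVal) sA = gb ∧ gb ≠ 0 := by
  obtain ⟨cA, hcA⟩ := exists_map_resIncl P halg
  obtain ⟨s, hs, hloc, heq⟩ := exists_series_divDisc hF hc fun e => by
    rw [PowerSeries.coeff_map]; exact halg e
  have hδ : LeadUnit P.ring (deltaSer 1 ^ r) (r * 1) := by
    simpa using (leadUnit_deltaSer 1 P.ring).pow r
  have hser : SerIn P.ring (lsC s) := by
    rw [eq_div_of_mul_eq hδ.ne_zero heq, div_eq_mul_inv]
    refine SerIn.mul (fun i => ?_) hδ.inv.serIn
    rw [PowerSeries.coeff_coe]
    split_ifs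
    · exact P.ring.zero_mem
    · rw [PowerSeries.coeff_map]; exact Subtype.prop _
  set sA : LaurentSeries P.algVal :=
    ⟨fun i => ⟨s.coeff i, hser i⟩, s.isPWO_support.mono fun i hi h0 => hi (Subtype.ext h0)⟩
  have hsA : coeffMap P.algVal.subtype sA = s := HahnSeries.ext (funext fun _ => rfl)
  have htoC : toC P sA = lsC s := congrArg lsC hsA
  have hrel : sA * HahnSeries.ofPowerSeries ℤ _ (deltaPS P.algVal) ^ r =
      HahnSeries.ofPowerSeries ℤ _ cA := toC_injective P (by
    rw [map_mul, map_pow, htoC, toC_ofPowerSeries, toC_ofPowerSeries, hcA, map_deltaPS,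
      map_deltaPS, ← deltaSer_one_eq, heq])
  have hmem : coeffMap (IsLocalRing.residue P.algVal) sA ∈
      modularFunctionFieldFullC (IsLocalRing.ResidueField P.algVal) N :=
    Curve.Red.coeffMap_residue_mem_fullC P.algVal_liesOverPrime hqN sA (by
      rw [Curve.modularFunctionFieldBar_eq_jField, hsA]; exact hs)
  refine ⟨sA, cA, ⟨_, hmem⟩, hsA ▸ hs, htoC ▸ hloc, hcA, hrel, rfl, fun h0 => hcres ?_⟩
  have h1 := congrArg (coeffMap (IsLocalRing.residue P.algVal)) hrel
  have h0' : coeffMap (IsLocalRing.residue P.algVal) sA = 0 := congrArg Subtype.val h0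
  rw [map_mul, h0', zero_mul,
    ModularCurve.coeffMap_ofPowerSeries] at h1
  rw [← hcA, map_res_eq_zero_iff]
  exact HahnSeries.ofPowerSeries_injective (h1.symm.trans (map_zero _).symm)

end FermatAgent.BAD.Lift
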