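import Fermat.Agent.Curve.Red.Datum
import Fermat.Agent.Curve.Lift.Disc
import Fermat.Agent.ES.Coeff.Residue
import Fermat.Agent.ES.LemmaL
import Fermat.Agent.Flat.Kummer.OfChar

/-!
# The datum of a place of `ℂ` and the discriminant at level `M`

The discriminant `Δ` as a form, its integral series and its quotient by the auxiliary standard
form, a unit of the ring of level `M`; the reduction datum of the valuation ring of `ℚ̄` cut out
by the place.
-/

set_option autoImplicit false

open UpperHalfPlane CongruenceSubgroup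
open scoped MatrixGroups ModularForm
open ModularCurve (coeffMap qExpand)

noncomputable section

namespace FermatAgent.BAD.Lift

open FermatAgent.ES (BSub BRing SerIn HasExp HasLExp lexp lexp_eq hasLExp_lexp act AuxLevel CPlace
  GoodRoot zetaC auxW auxSer IsTwist embC LeadUnit UnitIn)
open FermatAgent.Curve (HasLoc qw)
open FermatAgent.Flat.Kummer (deltaSer)

local notation "Δ" => ModularForm.discriminant
local notation "Qb" => AlgebraicClosure ℚ

/-- `Δ` is a form of weight twelve with trivial multiplier. -/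
theorem isTwist_disc (Γ : Subgroup SL(2, ℤ)) : IsTwist Γ ((2 * 6 : ℕ) : ℤ) 1 (Δ : ℍ → ℂ) where
  mdiff := Curve.mdiff_discriminant
  slash γ := by
    refine (Curve.slash_discriminant (γ : SL(2, ℤ))).trans (funext fun τ => ?_)
    simp
  bdd γ := by
    rw [show ((2 * 6 : ℕ) : ℤ) = 12 from rfl, Curve.slash_discriminant]
    exact ModularForm.discriminant_isZeroAtImInfty.isBoundedAtImInfty

/-- The integral series of the discriminant. -/
def deltaZ : LaurentSeries ℤ :=
  HahnSeries.ofPowerSeries ℤ ℤ (PowerSeries.X * ModularCurve.dedekindEtaUnit)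

/-- The series of the discriminant over any ring. -/
theorem coeffMap_deltaZ (R : Type*) [CommRing R] :
    coeffMap (Int.castRingHom R) deltaZ = HahnSeries.ofPowerSeries ℤ R
      (PowerSeries.X * ModularCurve.dedekindEtaUnit.map (Int.castRingHom R)) := by
  rw [deltaZ, ModularCurve.coeffMap_ofPowerSeries, map_mul, PowerSeries.map_X]

theorem coeff_deltaZ_lt {j : ℤ} (hj : j < 1) : deltaZ.coeff j = 0 := by
  rw [deltaZ, PowerSeries.coeff_coe]
  split_ifs with h
  · rfl
  · rw [show j = 0 by omega, Int.natAbs_zero, PowerSeries.coeff_zero_eq_constantCoeff_apply,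
      map_mul, PowerSeries.constantCoeff_X, zero_mul]

theorem coeff_deltaZ_one : deltaZ.coeff 1 = 1 := by
  rw [deltaZ, show (1 : ℤ) = ((1 : ℕ) : ℤ) from rfl, HahnSeries.ofPowerSeries_apply_coeff,
    show (1 : ℕ) = 0 + 1 from rfl, PowerSeries.coeff_succ_X_mul,
    PowerSeries.coeff_zero_eq_constantCoeff_apply]
  exact ModularCurve.constantCoeff_dedekindEtaUnit

/-- The series of the discriminant at width `M`. -/
theorem deltaSer_eq (M : ℕ) [NeZero M] :
    deltaSer M = qExpand ℂ M (coeffMap (Int.castRingHom ℂ) deltaZ) := by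
  rw [coeffMap_deltaZ]
  rfl

/-- The series of the discriminant has leading coefficient `1` in degree `M`. -/
theorem leadUnit_deltaSer (M : ℕ) [NeZero M] (A : Subring ℂ) :
    LeadUnit A (deltaSer M) (M : ℤ) := by
  have hcast : ∀ j, (coeffMap (Int.castRingHom ℂ) deltaZ).coeff j = ((deltaZ.coeff j : ℤ) : ℂ) :=
    fun j => by rw [ModularCurve.coeffMap_coeff]; rfl
  rw [deltaSer_eq]
  refine LeadUnit.of_coeff (fun j => ?_) (fun j hj => ?_) ?_
  · by_cases hd : (M : ℤ) ∣ j
    · obtain ⟨i, rfl⟩ := hd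
      rw [ModularCurve.qExpand_coeff_mul, hcast]
      exact intCast_mem A _
    · rw [ModularCurve.qExpand_coeff_of_not_dvd _ _ hd]
      exact A.zero_mem
  · by_cases hd : (M : ℤ) ∣ j
    · obtain ⟨i, rfl⟩ := hd
      have hi : i < 1 := by
        by_contra h
        push Not at h
        nlinarith
      rw [ModularCurve.qExpand_coeff_mul, hcast, coeff_deltaZ_lt hi, Int.cast_zero]
    · exact ModularCurve.qExpand_coeff_of_not_dvd _ _ hd
  · have e : (qExpand ℂ M (coeffMap (Int.castRingHom ℂ) deltaZ)).coeff ((M : ℤ) * 1) = 1 := by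
      rw [ModularCurve.qExpand_coeff_mul, hcast, coeff_deltaZ_one, Int.cast_one]
    rw [mul_one] at e
    rw [e]
    exact ⟨one_ne_zero, A.one_mem, by rw [inv_one]; exact A.one_mem⟩

/-- The expansion of the discriminant at width `M`. -/
theorem hasLExp_disc (M : ℕ) [NeZero M] : HasLExp M (Δ : ℍ → ℂ) (deltaSer M) :=
  Curve.Red.hasLExp_of_hasLoc_one Flat.Kummer.hasLoc_discriminant

variable {M m : ℕ} [NeZero M] (haux : AuxLevel M m)

/-- A form with trivial multiplier has expansions at every cusp. -/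
theorem exists_hasExp_slash {Γ : Subgroup SL(2, ℤ)} (hΓ : Gamma M ≤ Γ) {k : ℤ} {f : ℍ → ℂ}
    (hf : IsTwist Γ k 1 f) (γ : SL(2, ℤ)) : ∃ c, HasExp M (f ∣[k] γ) c :=
  ⟨_, HasExp.exists_of_bounded (ES.periodic_slash_of_trivial hΓ hf γ)
    (hf.mdiff.slash _ _) (hf.bdd γ)⟩

include haux in
/-- The function `Δ / W⁶`. -/
def unitU : ℍ → ℂ := fun τ => Δ τ / auxW haux τ ^ 6

/-- `Δ / W⁶` has no zeros. -/
theorem unitU_ne_zero (τ : ℍ) : unitU haux τ ≠ 0 :=
  div_ne_zero (ModularForm.discriminant_ne_zero τ) (pow_ne_zero _ (ES.auxW_ne_zero haux τ))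

/-- `Δ / W⁶` is a function of level `M`. -/
theorem unitU_mem_BSub : unitU haux ∈ BSub M :=
  ES.form_div_mem haux (Γ := (⊤ : Subgroup SL(2, ℤ))) le_top (isTwist_disc ⊤)

theorem lexp_unitU (γ : SL(2, ℤ)) :
    lexp M γ (unitU haux) = deltaSer M * (auxSer haux γ ^ 6)⁻¹ := by
  obtain ⟨c, hc⟩ := exists_hasExp_slash (M := M) (le_top (a := Gamma M))
    (isTwist_disc (⊤ : Subgroup SL(2, ℤ))) γ
  have hc' := hc
  rw [show ((2 * 6 : ℕ) : ℤ) = 12 from rfl, Curve.slash_discriminant] at hc'
  rw [← (HasLExp.of_exp hc').series_unique (hasLExp_disc M)]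
  exact lexp_eq (ES.hasLExp_form_div haux hc)

theorem leadUnit_unitU {A : Subring ℂ} (hA : GoodRoot M A (zetaC M)) (γ : SL(2, ℤ)) :
    ∃ d, LeadUnit A (lexp M γ (unitU haux)) d := by
  obtain ⟨k, hk⟩ := ES.exists_leadUnit_auxSer haux hA γ
  rw [lexp_unitU]
  exact ⟨_, (leadUnit_deltaSer M A).mul (hk.pow 6).inv⟩

/-- `Δ / W⁶` lies in the ring of level `M`. -/
theorem unitU_mem {A : Subring ℂ} (hA : GoodRoot M A (zetaC M)) : unitU haux ∈ BRing M A :=
  ⟨unitU_mem_BSub haux, fun γ => (leadUnit_unitU haux hA γ).choose_spec.serIn⟩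

/-- The inverse of `Δ / W⁶` lies in the ring of level `M`. -/
theorem unitU_inv_mem {A : Subring ℂ} (hA : GoodRoot M A (zetaC M)) :
    (unitU haux)⁻¹ ∈ BRing M A := by
  have hmem := ES.inv_mem_BSub (unitU_mem_BSub haux) (unitU_ne_zero haux)
  refine ⟨hmem, fun γ => ?_⟩
  have h := Curve.Red.lexp_mul (unitU_mem_BSub haux) hmem γ
  rw [show unitU haux * (unitU haux)⁻¹ = 1 from
    funext fun τ => mul_inv_cancel₀ (unitU_ne_zero haux τ), lexp_eq HasLExp.one] at h
  rw [eq_inv_of_mul_eq_one_right h.symm]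
  exact (leadUnit_unitU haux hA γ).choose_spec.inv.serIn

section Place

variable {q : ℕ} [Fact q.Prime] (P : CPlace q)

/-- A number prime to `q` is not divisible by `q`. -/
theorem not_dvd_of_coprime {M : ℕ} (hM : M.Coprime q) : ¬ q ∣ M := fun h =>
  (Fact.out : q.Prime).one_lt.ne' (by
    rw [← Nat.gcd_eq_right h]; exact hM)

/-- The datum of the valuation ring of `ℚ̄` of the place. -/
def placeDat (hM : M.Coprime q) :
    Curve.Red.RedDatum M (IsLocalRing.ResidueField P.algVal) :=
  Curve.Red.redDatum P.algVal P.algVal_liesOverPrime M (not_dvd_of_coprime hM)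

variable (hM : M.Coprime q)

/-- The ring of the datum consists of the algebraic numbers integral at the place. -/
theorem mem_placeDat {x : ℂ} :
    x ∈ (placeDat P hM).R ↔ IsAlgebraic ℚ x ∧ x ∈ P.ring := by
  constructor
  · rintro ⟨a, ha, rfl⟩
    exact ⟨(Algebra.IsAlgebraic.isAlgebraic (R := ℚ) a).algHom embC, ha⟩
  · rintro ⟨hx, hx'⟩
    obtain ⟨a, rfl⟩ := ES.exists_embC_eq hx
    exact ⟨a, hx', rfl⟩

/-- The ring of the datum is contained in that of the place. -/
theorem placeDat_le : (placeDat P hM).R ≤ P.ring := fun _ h => ((mem_placeDat P hM).1 h).2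

/-- The ring of the datum is integrally closed. -/
theorem intClosed_placeDat : (placeDat P hM).IntClosed := by
  rintro x ⟨F, hF, hx⟩
  refine (mem_placeDat P hM).2 ⟨?_, P.integrallyClosed x ⟨F.map (Subring.inclusion
    (placeDat_le P hM)), hF.map _, by rw [Polynomial.map_map]; exact hx⟩⟩
  have hQ : Algebra.IsAlgebraic ℚ Qb := AlgebraicClosure.isAlgebraic ℚ
  let ι : (placeDat P hM).R →+* (embC : Qb →ₐ[ℚ] ℂ).fieldRange :=
    (placeDat P hM).R.subtype.codRestrict _ fun y => by
      obtain ⟨a, -, e⟩ := y.2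
      exact ⟨a, e⟩
  have halg : Algebra.IsAlgebraic ℚ (embC : Qb →ₐ[ℚ] ℂ).fieldRange :=
    (AlgEquiv.ofInjectiveField embC).isAlgebraic
  have := halg
  have hint : IsIntegral (embC : Qb →ₐ[ℚ] ℂ).fieldRange x := by
    refine ⟨F.map ι, hF.map _, ?_⟩
    rw [Polynomial.eval₂_map, ← Polynomial.eval_map]
    exact hx
  exact isIntegral_trans (R := ℚ) x hint |>.isAlgebraic

/-- The residue fields: from the algebraic numbers to `ℂ`. -/
def resIncl : P.algVal →+* P.ring :=
  ((embC : Qb →ₐ[ℚ] ℂ).toRingHom.comp P.algVal.subtype).codRestrict P.ring fun a => a.2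

/-- The two residue maps have the same kernel. -/
theorem res_eq_zero_iff (x : (placeDat P hM).R) :
    P.res ⟨(x : ℂ), placeDat_le P hM x.2⟩ = 0 ↔ (placeDat P hM).π x = 0 := by
  rw [P.res_eq_zero_iff, (placeDat P hM).pi_eq_zero_iff]
  constructor
  · intro h hu
    have h1 : UnitIn P.ring (x : ℂ) := ⟨hu.1, placeDat_le P hM hu.2.1, placeDat_le P hM hu.2.2⟩
    exact h.ne (P.abv_eq_one_of_unitIn h1)
  · intro h
    refine lt_of_le_of_ne (placeDat_le P hM x.2) fun h1 => h ?_
    have hu := P.unitIn_of_abv_eq_one h1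
    exact ⟨hu.1, x.2, (mem_placeDat P hM).2 ⟨((mem_placeDat P hM).1 x.2).1.inv, hu.2.2⟩⟩

end Place

end FermatAgent.BAD.Lift
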