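import Fermat.Agent.BAD.Lift.Residue

/-!
# The residual divisor from the hypotheses on the form

Hypotheses on the orders of a form of weight `12 r` at the cusps and in the residual discs give
that twelve times the orders of the residual function of `F / Δ ^ r` are divisible by `n`.
-/

set_option autoImplicit false

open UpperHalfPlane hiding I
open CongruenceSubgroup (Gamma Gamma0)
open scoped MatrixGroups ModularForm
open ModularCurve (coeffMap qExpand modularFunctionFieldFullC)
open AlgebraicCurve (Place)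

noncomputable section

namespace FermatAgent.BAD.Lift

open FermatAgent.ES (BSub BRing SerIn HasExp HasLExp lexp lexp_eq hasLExp_lexp act LeadUnit UnitIn
  AuxLevel CPlace IsTwist embC auxW GoodPoint discHom)
open FermatAgent.Curve (HasLoc qw jField)
open FermatAgent.Flat.Kummer (deltaSer)
open FermatAgent.Mazur (lsC)

attribute [local instance] Mazur.embAlg

local notation "Qb" => AlgebraicClosure ℚ

variable {q : ℕ} [Fact q.Prime] (P : CPlace q) {N : ℕ} [NeZero N] {M m : ℕ} [NeZero M]
  (haux : AuxLevel M m) (hNM : N ∣ M) (hM : M.Coprime q)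

/-- From the algebraic integers of the place to the residue field of the place of `ℂ`. -/
def datRes : (placeDat P hM).R →+* IsLocalRing.ResidueField P.ring :=
  P.res.comp (Subring.inclusion (placeDat_le P hM))

theorem coeffMap_datRes_order (t : LaurentSeries (placeDat P hM).R) :
    (coeffMap (datRes P hM) t).order = (coeffMap (placeDat P hM).π t).order ∧
      (coeffMap (datRes P hM) t = 0 ↔ coeffMap (placeDat P hM).π t = 0) := by
  have h : ∀ i, (coeffMap (datRes P hM) t).coeff i = 0 ↔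
      (coeffMap (placeDat P hM).π t).coeff i = 0 := fun i => by
    rw [ModularCurve.coeffMap_coeff, ModularCurve.coeffMap_coeff]
    exact res_eq_zero_iff P hM _
  have h0 : coeffMap (datRes P hM) t = 0 ↔ coeffMap (placeDat P hM).π t = 0 := by
    simp only [HahnSeries.ext_iff, funext_iff, HahnSeries.coeff_zero, h]
  refine ⟨?_, h0⟩
  by_cases hz : coeffMap (datRes P hM) t = 0
  · rw [hz, h0.1 hz, HahnSeries.order_zero, HahnSeries.order_zero]
  · exact le_antisymm
      (HahnSeries.order_le_of_coeff_ne_zero fun hc =>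
        (HahnSeries.coeff_order_eq_zero.not.mpr (mt h0.2 hz)) ((h _).1 hc))
      (HahnSeries.order_le_of_coeff_ne_zero fun hc =>
        (HahnSeries.coeff_order_eq_zero.not.mpr hz) ((h _).2 hc))

theorem goodPoint_of_datum {τ : ℍ} (hg : GoodPoint haux (placeDat P hM).R τ) :
    GoodPoint haux P.ring τ := by
  have hu : ∀ {x : ℂ}, UnitIn (placeDat P hM).R x → UnitIn P.ring x := fun h =>
    ⟨h.1, placeDat_le P hM h.2.1, placeDat_le P hM h.2.2⟩
  exact ⟨⟨hu hg.val.unit, hu hg.val.unit_one, hu hg.val.unit_root⟩,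
    fun S g => placeDat_le P hM (hg.sepA_mem S g), fun S g => placeDat_le P hM (hg.sepB_mem S g)⟩

variable {r n : ℕ} {F : ℍ → ℂ} {sA : LaurentSeries P.algVal}
  {gb : modularFunctionFieldFullC (IsLocalRing.ResidueField P.algVal) N}

include haux hNM in
theorem divDisc_mem_datum (hF : IsTwist (Gamma0 N) ((12 * r : ℕ) : ℤ) 1 F)
    (hsA : coeffMap P.algVal.subtype sA ∈ jField Qb N)
    (hloc : HasLoc (qw 1) (divDisc F r) (toC P sA)) :
    divDisc F r ∈ BRing M (placeDat P hM).R :=
  divDisc_mem_BRing haux hNM P hM hF hsA hloc fun i => by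
    rw [ModularCurve.coeffMap_coeff]
    exact (sA.coeff i).2

include haux hNM in
/-- The reduction at `∞` of the quotient is the residual series. -/
theorem redHom_divDisc (hF : IsTwist (Gamma0 N) ((12 * r : ℕ) : ℤ) 1 F)
    (hsA : coeffMap P.algVal.subtype sA ∈ jField Qb N)
    (hloc : HasLoc (qw 1) (divDisc F r) (toC P sA))
    (hgb : coeffMap (IsLocalRing.residue P.algVal) sA = gb) :
    (placeDat P hM).redHom 1
        ⟨divDisc F r, divDisc_mem_datum P haux hNM hM hF hsA hloc⟩ =
      qExpand (IsLocalRing.ResidueField P.algVal) M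
        (gb : LaurentSeries (IsLocalRing.ResidueField P.algVal)) := by
  have hl : lexp M 1 (divDisc F r) = qExpand ℂ M (toC P sA) := lexp_one_of_hasLoc hloc
  rw [← hgb]
  ext i
  rw [(placeDat P hM).coeff_redHom]
  by_cases hd : (M : ℤ) ∣ i
  · obtain ⟨j, rfl⟩ := hd
    rw [ModularCurve.qExpand_coeff_mul, ModularCurve.coeffMap_coeff]
    refine congrArg (IsLocalRing.residue P.algVal) ((RingEquiv.symm_apply_eq _).2 (Subtype.ext ?_))
    show (lexp M 1 (divDisc F r)).coeff ((M : ℤ) * j) = _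
    rw [hl, ModularCurve.qExpand_coeff_mul]
    rfl
  · rw [ModularCurve.qExpand_coeff_of_not_dvd _ _ hd]
    convert map_zero (placeDat P hM).π
    show (lexp M 1 (divDisc F r)).coeff i = _
    rw [hl, ModularCurve.qExpand_coeff_of_not_dvd _ _ hd]
    rfl

include hM in
omit [Fact q.Prime] in
theorem unitU_isUnit : IsUnit (⟨unitU haux, unitU_mem haux (P.goodRoot hM)⟩ : BRing M P.ring) :=
  IsUnit.of_mul_eq_one ⟨_, unitU_inv_mem haux (P.goodRoot hM)⟩
    (Subtype.ext (funext fun τ => mul_inv_cancel₀ (unitU_ne_zero haux τ)))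

include haux hNM hM in
/-- The residual orders in the discs, from the orders of the function of weight zero. -/
theorem residual_disc_hyp (hF : IsTwist (Gamma0 N) ((12 * r : ℕ) : ℤ) 1 F)
    (hsA : coeffMap P.algVal.subtype sA ∈ jField Qb N)
    (hloc : HasLoc (qw 1) (divDisc F r) (toC P sA))
    (hdisc : ∀ G : BRing M P.ring,
      (G : ℍ → ℂ) = (fun τ => F τ / auxW haux τ ^ (6 * r)) →
      ∀ (τ : ℍ) (hg : GoodPoint haux P.ring τ) (i : ℕ),
        ((discHom haux τ (P.goodRoot hM) hg G).map P.res).order = i → n ∣ i) :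
    ∀ (τ : ℍ) (_ : Curve.jFun τ ∈ (placeDat P hM).R)
      (hg : GoodPoint haux (placeDat P hM).R τ) (i : ℕ),
      ((placeDat P hM).resDisc haux hg
        ⟨divDisc F r, divDisc_mem_datum P haux hNM hM hF hsA hloc⟩).order = (i : ℕ∞) → n ∣ i := by
  set D := placeDat P hM
  set fB : BRing M D.R := ⟨divDisc F r, divDisc_mem_datum P haux hNM hM hF hsA hloc⟩
  intro τ _ hg i hi
  have hg' := goodPoint_of_datum P haux hM hg
  set U : BRing M P.ring := ⟨unitU haux, unitU_mem haux (P.goodRoot hM)⟩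
  set fP : BRing M P.ring := ⟨divDisc F r, fB.2.1, fun γ j => placeDat_le P hM (fB.2.2 γ j)⟩
  refine hdisc (fP * U ^ r) (div_auxW_eq haux F r).symm τ hg' i ?_
  set ψ := (PowerSeries.map P.res).comp (discHom haux τ (P.goodRoot hM) hg')
  have hψ : ψ fP = PowerSeries.map (datRes P hM) (discHom haux τ D.good hg fB) := by
    show PowerSeries.map P.res _ = _
    rw [ES.discHom_mono haux τ D.good hg (P.goodRoot hM) hg' (placeDat_le P hM) fB]
    ext j
    simp only [PowerSeries.coeff_map]
    rfl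
  have hU : (ψ U).order = 0 :=
    PowerSeries.order_zero_of_unit ((unitU_isUnit P haux hM).map ψ)
  show (ψ (fP * U ^ r)).order = _
  rw [map_mul, map_pow, PowerSeries.order_mul, PowerSeries.order_pow, hU, smul_zero, add_zero,
    hψ, ← hi]
  have key : ∀ j, PowerSeries.coeff j (PowerSeries.map (datRes P hM)
      (discHom haux τ D.good hg fB)) = 0 ↔
      PowerSeries.coeff j (D.resDisc haux hg fB) = 0 := fun j => by
    rw [PowerSeries.coeff_map]
    show _ ↔ PowerSeries.coeff j (PowerSeries.map D.π _) = 0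
    rw [PowerSeries.coeff_map]
    exact res_eq_zero_iff P hM _
  obtain ⟨h1, h2⟩ := PowerSeries.order_eq_nat.1 hi
  rw [hi]
  exact PowerSeries.order_eq_nat.2 ⟨fun h => h1 ((key i).1 h), fun j hj => (key j).2 (h2 j hj)⟩

include haux hNM hM in
/-- The residual orders at the cusps, from the expansions of the form. -/
theorem residual_cusp_hyp (hF : IsTwist (Gamma0 N) ((12 * r : ℕ) : ℤ) 1 F)
    (hsA : coeffMap P.algVal.subtype sA ∈ jField Qb N)
    (hloc : HasLoc (qw 1) (divDisc F r) (toC P sA))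
    (hgb : coeffMap (IsLocalRing.residue P.algVal) sA = gb) (hgb0 : gb ≠ 0) (hnr : n ∣ r)
    (hcusp : ∀ (γ : SL(2, ℤ)) (w : ℕ), γ * ModularGroup.T ^ w * γ⁻¹ ∈ Gamma0 N →
      ∀ d : PowerSeries P.ring,
        HasExp M (F ∣[((12 * r : ℕ) : ℤ)] γ) (d.map P.ring.subtype) →
        ∀ i : ℕ, (d.map P.res).order = i → n * M ∣ w * i) :
    ∀ (γ : SL(2, ℤ)) (w : ℕ), γ * ModularGroup.T ^ w * γ⁻¹ ∈ Gamma0 N →
      ((n * M : ℕ) : ℤ) ∣ (w : ℤ) * ((placeDat P hM).redHom γ
        ⟨divDisc F r, divDisc_mem_datum P haux hNM hM hF hsA hloc⟩).order := by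
  set D := placeDat P hM
  set fB : BRing M D.R := ⟨divDisc F r, divDisc_mem_datum P haux hNM hM hF hsA hloc⟩
  have hf := redHom_divDisc P haux hNM hM hF hsA hloc hgb
  intro γ w hw
  obtain ⟨d0, hd0⟩ := exists_hasExp_slash (gamma_le_gamma0 hNM) hF γ
  set t := Curve.Red.liftSer D.R (D.serHom γ fB)
  have hδ := leadUnit_deltaSer M D.R
  set e := Curve.Red.liftSer D.R ⟨deltaSer M, hδ.serIn⟩
  have hid : coeffMap D.R.subtype (t * e ^ r) = HahnSeries.ofPowerSeries ℤ ℂ d0 := by
    have ht : coeffMap D.R.subtype t = lexp M γ (divDisc F r) :=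
      HahnSeries.ext (funext fun _ => rfl)
    have he : coeffMap D.R.subtype e = deltaSer M := HahnSeries.ext (funext fun _ => rfl)
    rw [map_mul, map_pow, ht, he]
    refine ((hasLExp_lexp fB.2.1 γ).mul ((hasLExp_disc M).pow r)).series_unique ?_
    have hprod : act γ (divDisc F r) * (ModularForm.discriminant : ℍ → ℂ) ^ r =
        F ∣[((12 * r : ℕ) : ℤ)] γ := by
      funext τ
      rw [act_divDisc]
      simp only [Pi.mul_apply, Pi.pow_apply]
      exact div_mul_cancel₀ _ (pow_ne_zero r (ModularForm.discriminant_ne_zero τ))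
    rw [show (fB : ℍ → ℂ) = divDisc F r from rfl, hprod]
    exact HasLExp.of_exp hd0
  have hcoef : ∀ j : ℕ, PowerSeries.coeff j d0 = (((t * e ^ r).coeff (j : ℤ) : D.R) : ℂ) :=
    fun j => by
      have h := congrArg (fun s : LaurentSeries ℂ => s.coeff (j : ℤ)) hid
      simp only [HahnSeries.ofPowerSeries_apply_coeff, ModularCurve.coeffMap_coeff] at h
      exact h.symm
  set d : PowerSeries P.ring :=
    PowerSeries.mk fun j : ℕ => Subring.inclusion (placeDat_le P hM) ((t * e ^ r).coeff (j : ℤ))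
  have hd : d.map P.ring.subtype = d0 := by
    ext j
    rw [PowerSeries.coeff_map, PowerSeries.coeff_mk, hcoef]
    rfl
  have hds : HahnSeries.ofPowerSeries ℤ _ (d.map P.res) =
      coeffMap (datRes P hM) (t * e ^ r) := by
    ext i
    rw [ModularCurve.coeffMap_coeff, PowerSeries.coeff_coe]
    split_ifs with hi
    · have h := congrArg (fun s : LaurentSeries ℂ => s.coeff i) hid
      simp only [ModularCurve.coeffMap_coeff, PowerSeries.coeff_coe, if_pos hi] at h
      rw [show (t * e ^ r).coeff i = 0 from Subtype.ext h, map_zero]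
    · rw [PowerSeries.coeff_map, PowerSeries.coeff_mk, Int.natAbs_of_nonneg (by omega)]
      rfl
  have ht0 : coeffMap (datRes P hM) t ≠ 0 := fun h => hgb0 (by
    have h1 : D.redHom γ fB = 0 := (coeffMap_datRes_order P hM t).2.1 h
    rw [D.redHom_eq_zero_iff haux γ 1, hf] at h1
    exact Subtype.ext (ModularCurve.qExpand_injective M (h1.trans (map_zero _).symm)))
  have hu := hδ.unitIn_coeff
  have hec : (coeffMap (datRes P hM) e).coeff M ≠ 0 := by
    rw [ModularCurve.coeffMap_coeff]
    intro h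
    exact D.pi_eq_zero_iff.1 ((res_eq_zero_iff P hM _).1 h) hu
  have he : (coeffMap (datRes P hM) e).order = (M : ℤ) :=
    le_antisymm (HahnSeries.order_le_of_coeff_ne_zero hec)
      ((HahnSeries.le_order_iff_forall fun h => hec (by rw [h]; rfl)).2 fun j hj => by
        rw [ModularCurve.coeffMap_coeff,
          show e.coeff j = 0 from Subtype.ext (hδ.coeff_of_lt hj), map_zero])
  have he0 : coeffMap (datRes P hM) e ≠ 0 := fun h => hec (by rw [h]; rfl)
  obtain ⟨i, hi⟩ : ∃ i : ℕ, (d.map P.res).order = i := by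
    refine ⟨_, (ENat.natCast_toNat ?_).symm⟩
    rw [Ne, PowerSeries.order_eq_top]
    intro h
    rw [h, map_zero, map_mul, map_pow] at hds
    exact mul_ne_zero ht0 (pow_ne_zero _ he0) hds.symm
  have hsum := congrArg HahnSeries.order hds
  rw [Curve.Red.order_ofPowerSeries hi, map_mul, map_pow,
    HahnSeries.order_mul ht0 (pow_ne_zero _ he0), Curve.order_pow, he,
    (coeffMap_datRes_order P hM t).1] at hsum
  have hdvd : ((n * M : ℕ) : ℤ) ∣ (w : ℤ) * i := by
    exact_mod_cast Int.natCast_dvd_natCast.2 (hcusp γ w hw d (hd ▸ hd0) i hi)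
  have hr' : ((n * M : ℕ) : ℤ) ∣ (w : ℤ) * ((r : ℤ) * M) := by
    push_cast
    exact Dvd.dvd.mul_left (mul_dvd_mul_right (Int.natCast_dvd_natCast.2 hnr) _) _
  rw [show (w : ℤ) * (D.redHom γ fB).order = (w : ℤ) * i - (w : ℤ) * ((r : ℤ) * M) by
    rw [show D.redHom γ fB = coeffMap D.π t from rfl, hsum]; ring]
  exact dvd_sub hdvd hr'

include haux hNM hM in
/-- The residual orders of the function at the cusps and in the discs. -/
theorem residual_order_hyps (hF : IsTwist (Gamma0 N) ((12 * r : ℕ) : ℤ) 1 F)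
    (hsA : coeffMap P.algVal.subtype sA ∈ jField Qb N)
    (hloc : HasLoc (qw 1) (divDisc F r) (toC P sA))
    (hgb : coeffMap (IsLocalRing.residue P.algVal) sA = gb) (hgb0 : gb ≠ 0) (hnr : n ∣ r)
    (hcusp : ∀ (γ : SL(2, ℤ)) (w : ℕ), γ * ModularGroup.T ^ w * γ⁻¹ ∈ Gamma0 N →
      ∀ d : PowerSeries P.ring,
        HasExp M (F ∣[((12 * r : ℕ) : ℤ)] γ) (d.map P.ring.subtype) →
        ∀ i : ℕ, (d.map P.res).order = i → n * M ∣ w * i)
    (hdisc : ∀ G : BRing M P.ring,
      (G : ℍ → ℂ) = (fun τ => F τ / auxW haux τ ^ (6 * r)) →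
      ∀ (τ : ℍ) (hg : GoodPoint haux P.ring τ) (i : ℕ),
        ((discHom haux τ (P.goodRoot hM) hg G).map P.res).order = i → n ∣ i) :
    (∀ (γ : SL(2, ℤ)) (w : ℕ), γ * ModularGroup.T ^ w * γ⁻¹ ∈ Gamma0 N →
      ((n * M : ℕ) : ℤ) ∣ (w : ℤ) * ((placeDat P hM).redHom γ
        ⟨divDisc F r, divDisc_mem_datum P haux hNM hM hF hsA hloc⟩).order) ∧
    ∀ (τ : ℍ) (_ : Curve.jFun τ ∈ (placeDat P hM).R)
      (hg : GoodPoint haux (placeDat P hM).R τ) (i : ℕ),
      ((placeDat P hM).resDisc haux hg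
        ⟨divDisc F r, divDisc_mem_datum P haux hNM hM hF hsA hloc⟩).order = (i : ℕ∞) → n ∣ i := by
  exact ⟨residual_cusp_hyp P haux hNM hM hF hsA hloc hgb hgb0 hnr hcusp,
    residual_disc_hyp P haux hNM hM hF hsA hloc hdisc⟩

omit [NeZero M] in
include hNM hM in
/-- The residual degree of `j` is at most the index. -/
theorem finrank_residual_le :
    Module.finrank
      (IntermediateField.adjoin (IsLocalRing.ResidueField P.algVal)
        {Curve.Red.jFullC (IsLocalRing.ResidueField P.algVal) N})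
      (modularFunctionFieldFullC (IsLocalRing.ResidueField P.algVal) N) ≤ (Gamma0 N).index := by
  have hqN : ¬ q ∣ N := fun h => not_dvd_of_coprime hM (h.trans hNM)
  have := isAlgClosed_residueField P.algVal
  have := Curve.Red.isFF_fullC P.algVal_liesOverPrime hqN
  have hR := Curve.Red.regular_barModel P.algVal_liesOverPrime hqN
  have hxb : hR.xb = Curve.Red.jFullC (IsLocalRing.ResidueField P.algVal) N :=
    Subtype.ext (ModularCurve.coeffMap_jqModC _)
  rw [← hxb, hR.finrank_Fb]
  exact le_rfl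

include haux hNM hM in
/-- **The divisor of the residual function.** -/
theorem dvd_twelve_ord_residual (hF : IsTwist (Gamma0 N) ((12 * r : ℕ) : ℤ) 1 F)
    (hsA : coeffMap P.algVal.subtype sA ∈ jField Qb N)
    (hloc : HasLoc (qw 1) (divDisc F r) (toC P sA))
    (hgb : coeffMap (IsLocalRing.residue P.algVal) sA = gb) (hgb0 : gb ≠ 0) (hnr : n ∣ r)
    (hcusp : ∀ (γ : SL(2, ℤ)) (w : ℕ), γ * ModularGroup.T ^ w * γ⁻¹ ∈ Gamma0 N →
      ∀ d : PowerSeries P.ring,
        HasExp M (F ∣[((12 * r : ℕ) : ℤ)] γ) (d.map P.ring.subtype) →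
        ∀ i : ℕ, (d.map P.res).order = i → n * M ∣ w * i)
    (hdisc : ∀ G : BRing M P.ring,
      (G : ℍ → ℂ) = (fun τ => F τ / auxW haux τ ^ (6 * r)) →
      ∀ (τ : ℍ) (hg : GoodPoint haux P.ring τ) (i : ℕ),
        ((discHom haux τ (P.goodRoot hM) hg G).map P.res).order = i → n ∣ i)
    (Q : Place (IsLocalRing.ResidueField P.algVal)
      (modularFunctionFieldFullC (IsLocalRing.ResidueField P.algVal) N)) :
    (n : ℤ) ∣ 12 * Q.ord gb := by
  have hqN : ¬ q ∣ N := fun h => not_dvd_of_coprime hM (h.trans hNM)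
  have := isAlgClosed_residueField P.algVal
  have := Curve.Red.isFF_fullC P.algVal_liesOverPrime hqN
  obtain ⟨h1, h2⟩ := residual_order_hyps P haux hNM hM hF hsA hloc hgb hgb0 hnr hcusp hdisc
  exact (placeDat P hM).dvd_twelve_ord haux (finrank_residual_le P hNM hM)
    (intClosed_placeDat P hM) hNM hgb0 (redHom_divDisc P haux hNM hM hF hsA hloc hgb) h1 h2 Q

end FermatAgent.BAD.Lift
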