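import Fermat.Agent.Flat.Kummer.Rel

/-!
# Clearing finite poles with a primitive polynomial in `j`

A function on `X₀(N)` with divisor divisible by `n` becomes, times the `n`-th power of a
polynomial in `j` with non-zero reduction, one whose `n`-th part is effective away from the poles
of `j`.
-/

set_option autoImplicit false

open AlgebraicCurve
open Polynomial

noncomputable section

namespace FermatAgent.BAD.Lift

open FermatAgent.Curve (jField jElt divisorOf divisorOf_apply OrdGE ordGE_iff_le ordGE_algebraMap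
  exists_sub_algebraMap transcendental_jElt ord_pow ord_algebraMap)

local notation "Qb" => AlgebraicClosure ℚ

attribute [local instance] Mazur.embAlg

variable (A : ValuationSubring Qb)

/-- A linear polynomial over `A` with root `c` and nonzero reduction. -/
theorem exists_linear_poly (c : Qb) : ∃ (p : A[X]) (u : Qb),
    p.map (IsLocalRing.residue A) ≠ 0 ∧ u ≠ 0 ∧ p.map A.subtype = C u * (X - C c) := by
  by_cases hc : c ∈ A
  · refine ⟨X - C ⟨c, hc⟩, 1, ?_, one_ne_zero, ?_⟩
    · rw [Polynomial.map_sub, map_X, map_C]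
      exact (monic_X_sub_C _).ne_zero
    · rw [Polynomial.map_sub, map_X, map_C, map_one, one_mul]
      rfl
  · have hinv : c⁻¹ ∈ A := (A.mem_or_inv_mem c).resolve_left hc
    have hc0 : c ≠ 0 := fun h => hc (h ▸ A.zero_mem)
    refine ⟨C ⟨c⁻¹, hinv⟩ * X - 1, c⁻¹, ?_, inv_ne_zero hc0, ?_⟩
    · intro h
      have h1 := congrArg (fun p => p.coeff 0) h
      simp at h1
    · rw [Polynomial.map_sub, Polynomial.map_mul, map_C, map_X, Polynomial.map_one, mul_sub,
        ← C_mul, inv_mul_cancel₀ hc0, map_one]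
      rfl

variable {N : ℕ} [NeZero N]

/-- **Clearing the finite poles.** -/
theorem exists_clear {n : ℕ} {f : jField Qb N} (hf : f ≠ 0)
    (hdiv : ∀ v : Place Qb (jField Qb N), (n : ℤ) ∣ v.ord f) :
    ∃ (R : A[X]) (D : Divisor Qb (jField Qb N)),
      R.map (IsLocalRing.residue A) ≠ 0 ∧
      f * aeval (jElt Qb N) (R.map A.subtype) ^ n ≠ 0 ∧
      divisorOf (f * aeval (jElt Qb N) (R.map A.subtype) ^ n) = n • D ∧
      ∀ v : Place Qb (jField Qb N), 0 ≤ v.ord (jElt Qb N) → 0 ≤ D v := by
  classical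
  let D₀ : Divisor Qb (jField Qb N) := (divisorOf f : Divisor Qb (jField Qb N)).mapRange
    (fun z => z / (n : ℤ)) (Int.zero_ediv _)
  obtain ⟨Z, a, e, hne, hpos⟩ := Flat.Kummer.exists_clearing D₀
  choose p u hp hu hpe using fun v => exists_linear_poly A (a v)
  set j := jElt Qb N
  set R : A[X] := ∏ v ∈ Z, p v ^ e v
  have hfac : ∀ v, algebraMap Qb (jField Qb N) (u v) * (j - algebraMap Qb _ (a v)) ≠ 0 := fun v =>
    mul_ne_zero ((_root_.map_ne_zero _).2 (hu v)) (hne v)
  have hRj : aeval j (R.map A.subtype) =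
      ∏ v ∈ Z, (algebraMap Qb _ (u v) * (j - algebraMap Qb _ (a v))) ^ e v := by
    simp [R, Polynomial.map_prod, hpe]
  have hR0 : aeval j (R.map A.subtype) ≠ 0 := by
    rw [hRj]; exact Finset.prod_ne_zero_iff.2 fun w _ => pow_ne_zero _ (hfac w)
  refine ⟨R, D₀ + divisorOf (aeval j (R.map A.subtype)), ?_,
    mul_ne_zero hf (pow_ne_zero n hR0), ?_, fun v hv => le_of_le_of_eq (hpos v hv) ?_⟩
  · rw [Polynomial.map_prod]
    exact Finset.prod_ne_zero_iff.2 fun w _ => by
      rw [Polynomial.map_pow]; exact pow_ne_zero _ (hp w)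
  · rw [Curve.divisorOf_mul hf (pow_ne_zero n hR0), smul_add]
    congr 1 <;> refine Finsupp.ext fun v => ?_
    · rw [Finsupp.smul_apply, Finsupp.mapRange_apply, nsmul_eq_mul, divisorOf_apply]
      exact (Int.mul_ediv_cancel' (hdiv v)).symm
    · simp [ord_pow]
  · rw [Finsupp.add_apply, divisorOf_apply, hRj,
      Curve.ord_prod _ _ fun w _ => pow_ne_zero _ (hfac w)]
    congr 1
    exact Finset.sum_congr rfl fun w _ => by
      rw [ord_pow, v.ord_mul ((_root_.map_ne_zero _).2 (hu w)) (hne w), ord_algebraMap (hu w),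
        zero_add]

end FermatAgent.BAD.Lift
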