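import Fermat.Agent.BAD.Lift.Residue
import Fermat.Agent.Flat.Kummer.Rel

/-!
# Forms from functions regular on the upper half-plane

A holomorphic function with multiplier whose translates have bounded poles becomes a form after
multiplication by a power of `Δ`.
-/

set_option autoImplicit false

open UpperHalfPlane hiding I
open Filter Topology
open CongruenceSubgroup (Gamma0)
open scoped MatrixGroups ModularForm Manifold
open ModularCurve (coeffMap)

noncomputable section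

namespace FermatAgent.BAD.Lift

open FermatAgent.ES (HasExp act act_one act_mul IsTwist CPlace)
open FermatAgent.Curve (HasLoc qw locCoord_qw)
open FermatAgent.Mazur (lsC regSub)

attribute [local instance] Mazur.embAlg

local notation "Δ" => ModularForm.discriminant

/-- The discriminant has period one. -/
theorem disc_periodic (τ : ℍ) : (Δ : ℍ → ℂ) ((1 : ℝ) +ᵥ τ) = Δ τ := by
  rw [← modular_T_smul, Curve.smul_eq_denom_zpow (Curve.slash_discriminant ModularGroup.T),
    ModularGroup.denom_apply]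
  simp [ModularGroup.coe_T]

theorem disc_isBigO_qw : (Δ : ℍ → ℂ) =O[atImInfty] qw 1 := by
  refine (ModularForm.discriminant_isZeroAtImInfty.exp_decay_atImInfty one_pos
    (Curve.periodic_comp_ofComplex_of_vadd disc_periodic) Curve.mdiff_discriminant
    ModularForm.discriminant_isZeroAtImInfty.isBoundedAtImInfty).trans
    (Asymptotics.isBigO_of_le _ fun τ => ?_)
  rw [Curve.norm_qw, Real.norm_of_nonneg (Real.exp_pos _).le]

theorem disc_bounded : IsBoundedAtImInfty (Δ : ℍ → ℂ) :=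
  ModularForm.discriminant_isZeroAtImInfty.isBoundedAtImInfty

theorem qw_bounded : IsBoundedAtImInfty fun τ : ℍ => qw 1 τ :=
  (qParam_tendsto_atImInfty (h := 1) one_pos).isBigO_one ℝ

theorem bounded_pow {f : ℍ → ℂ} (hf : IsBoundedAtImInfty f) (i : ℕ) :
    IsBoundedAtImInfty fun τ => f τ ^ i := by
  induction i with
  | zero =>
    simp only [pow_zero]
    exact const_boundedAtFilter atImInfty (1 : ℂ)
  | succ i ih =>
    have := ih.mul hf
    simp only [pow_succ]
    exact this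

theorem slash_mul_disc (h : ℍ → ℂ) (E : ℕ) (γ : SL(2, ℤ)) :
    (fun τ => h τ * Δ τ ^ E) ∣[((12 * E : ℕ) : ℤ)] γ = fun τ => act γ h τ * Δ τ ^ E := by
  funext τ
  have h1 := Flat.Kummer.apply_smul_eq_slash (fun τ => h τ * Δ τ ^ E) ((12 * E : ℕ) : ℤ) γ τ
  rw [Curve.smul_eq_denom_zpow (Curve.slash_discriminant γ), mul_pow, ← zpow_natCast (_ ^ (12 : ℤ)),
    ← zpow_mul, show (12 : ℤ) * ((E : ℕ) : ℤ) = ((12 * E : ℕ) : ℤ) by push_cast; ring] at h1
  refine (mul_left_cancel₀ (zpow_ne_zero ((12 * E : ℕ) : ℤ) (denom_ne_zero γ τ)) ?_).symm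
  rw [← h1]
  simp only [ES.act_apply]
  ring

/-- A function with multiplier and bounded poles, times a power of `Δ`, is a form. -/
theorem isTwist_mul_disc {Γ : Subgroup SL(2, ℤ)} {φ : Γ →* ℂˣ} {h : ℍ → ℂ} (hh : MDiff h)
    (hm : ∀ γ : Γ, ∀ τ, h ((γ : SL(2, ℤ)) • τ) = φ γ * h τ) {J : ℕ}
    (hb : ∀ k, IsBoundedAtImInfty fun τ => qw 1 τ ^ J * act k h τ) {E : ℕ} (hE : J ≤ E) :
    IsTwist Γ ((12 * E : ℕ) : ℤ) φ (fun τ => h τ * Δ τ ^ E) where
  mdiff := hh.mul (Curve.mdiff_discriminant.pow E)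
  slash γ := by
    rw [slash_mul_disc]
    funext τ
    rw [ES.act_apply, hm]
    ring
  bdd k := by
    rw [slash_mul_disc]
    have h1 : (fun τ => Δ τ ^ J) =O[atImInfty] fun τ => qw 1 τ ^ J := disc_isBigO_qw.pow J
    have h2 : (fun τ => Δ τ ^ J * act k h τ) =O[atImInfty] fun τ => qw 1 τ ^ J * act k h τ :=
      h1.mul (Asymptotics.isBigO_refl _ _)
    have h3 : IsBoundedAtImInfty fun τ => Δ τ ^ J * act k h τ := h2.trans (hb k)
    have h4 := h3.mul (bounded_pow disc_bounded (E - J))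
    refine h4.congr_left fun τ => ?_
    show Δ τ ^ J * act k h τ * Δ τ ^ (E - J) = act k h τ * Δ τ ^ E
    rw [mul_right_comm, ← pow_add, Nat.add_sub_cancel' hE, mul_comm]

/-- A uniform bound for the poles of the translates. -/
theorem exists_pole_bound {N : ℕ} [NeZero N] {φ : Gamma0 N →* ℂˣ} {h : ℍ → ℂ}
    (hm : ∀ γ : Gamma0 N, ∀ τ, h ((γ : SL(2, ℤ)) • τ) = φ γ * h τ)
    (hreg : ∀ k, act k h ∈ regSub) :
    ∃ J : ℕ, ∀ k, IsBoundedAtImInfty fun τ => qw 1 τ ^ J * act k h τ := by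
  classical
  have : Fintype (SL(2, ℤ) ⧸ Gamma0 N) := Fintype.ofFinite _
  choose B hB using fun x : SL(2, ℤ) ⧸ Gamma0 N => (hreg x.out⁻¹).2
  refine ⟨Finset.univ.sup B, fun k => ?_⟩
  set x : SL(2, ℤ) ⧸ Gamma0 N := QuotientGroup.mk k⁻¹
  obtain ⟨γ, hγ⟩ : ∃ γ : Gamma0 N, k = (γ : SL(2, ℤ)) * x.out⁻¹ := by
    obtain ⟨γ, hγ⟩ := QuotientGroup.mk_out_eq_mul (Gamma0 N) k⁻¹
    refine ⟨γ, ?_⟩
    rw [hγ, mul_inv_rev, inv_inv, mul_inv_cancel_left]
  have hle : B x ≤ Finset.univ.sup B := Finset.le_sup (Finset.mem_univ x)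
  have h1 := ((const_boundedAtFilter atImInfty ((φ γ : ℂˣ) : ℂ)).mul
    (bounded_pow qw_bounded (Finset.univ.sup B - B x))).mul (hB x)
  refine h1.congr_left fun τ => ?_
  show ((φ γ : ℂˣ) : ℂ) * qw 1 τ ^ (Finset.univ.sup B - B x) *
    (qw 1 τ ^ B x * h (x.out⁻¹ • τ)) = qw 1 τ ^ Finset.univ.sup B * h (k • τ)
  rw [show h (k • τ) = (φ γ : ℂ) * h (x.out⁻¹ • τ) by rw [← hm, ← mul_smul, ← hγ]]
  rw [show qw 1 τ ^ Finset.univ.sup B =
    qw 1 τ ^ (Finset.univ.sup B - B x) * qw 1 τ ^ B x by rw [← pow_add, Nat.sub_add_cancel hle]]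
  ring

variable {q : ℕ} [Fact q.Prime] (P : CPlace q)

omit [Fact q.Prime] in
/-- The expansion of a form with integral algebraic series. -/
theorem exists_integral_exp {f : ℍ → ℂ} (hf : MDiff f) (hb : IsBoundedAtImInfty f)
    (hper : ∀ τ, f ((1 : ℝ) +ᵥ τ) = f τ) {t : LaurentSeries P.algVal}
    (hloc : HasLoc (qw 1) f (toC P t)) :
    ∃ cA : PowerSeries P.algVal, HasExp 1 f ((cA.map (resIncl P)).map P.ring.subtype) ∧
      HahnSeries.ofPowerSeries ℤ _ cA = t := by
  have hexp := HasExp.exists_of_bounded (M := 1) (f := f)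
    (by rw [Nat.cast_one]; exact Curve.periodic_comp_ofComplex_of_vadd hper) hf hb
  set c := qExpansion ((1 : ℕ) : ℝ) f
  have heq : HahnSeries.ofPowerSeries ℤ ℂ c = toC P t :=
    (Curve.Red.hasLoc_of_hasExp hexp).unique (locCoord_qw one_pos) hloc
  set cA : PowerSeries P.algVal := PowerSeries.mk fun i : ℕ => t.coeff (i : ℤ)
  have hc : (cA.map (resIncl P)).map P.ring.subtype = c := by
    ext i
    have h := congrArg (fun s : LaurentSeries ℂ => s.coeff (i : ℤ)) heq
    simp only [HahnSeries.ofPowerSeries_apply_coeff] at h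
    rw [h, PowerSeries.coeff_map, PowerSeries.coeff_map, PowerSeries.coeff_mk]
    rfl
  refine ⟨cA, hc ▸ hexp, toC_injective P ?_⟩
  rw [toC_ofPowerSeries, hc, heq]

end FermatAgent.BAD.Lift
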