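import Fermat.Agent.BAD.Lift.Basic
import Fermat.Agent.Flat.Kummer.Functions

/-!
# The quotient of a form by a power of the discriminant

For a form `F` of weight `12 r` of level `N`, the function `F / Δ ^ r` lies in the function field
of `X₀(N)`, has algebraic expansions at all cusps, and lies in the ring of level `M` of the place
when its expansion at `∞` is integral.
-/

set_option autoImplicit false

open UpperHalfPlane hiding I
open Filter Topology
open CongruenceSubgroup (Gamma Gamma0 Gamma_mem Gamma0_mem)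
open scoped MatrixGroups ModularForm Manifold
open ModularCurve (coeffMap qExpand)

noncomputable section

namespace FermatAgent.BAD.Lift

open FermatAgent.ES (BSub BRing SerIn HasExp HasLExp lexp lexp_eq hasLExp_lexp act act_one
  act_mulFun AuxLevel CPlace GoodRoot zetaC auxW auxSer IsTwist embC)
open FermatAgent.Curve (HasLoc qw locCoord_qw JPoly evF jField toJField jGenF JIdx)
open FermatAgent.Flat.Kummer (deltaSer)
open FermatAgent.Mazur (lsC regSub)

attribute [local instance] Mazur.embAlg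

local notation "Δ" => ModularForm.discriminant
local notation "Qb" => AlgebraicClosure ℚ

variable {N : ℕ} [NeZero N]

/-- The quotient by `Δ ^ r`. -/
def divDisc (F : ℍ → ℂ) (r : ℕ) : ℍ → ℂ := fun τ => F τ / Δ τ ^ r

/-- The translates of the quotient. -/
theorem act_divDisc (F : ℍ → ℂ) (r : ℕ) (γ : SL(2, ℤ)) :
    act γ (divDisc F r) = fun τ => (F ∣[((12 * r : ℕ) : ℤ)] γ) τ / Δ τ ^ r := by
  funext τ
  show F (γ • τ) / Δ (γ • τ) ^ r = _
  rw [Flat.Kummer.apply_smul_eq_slash F ((12 * r : ℕ) : ℤ),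
    Curve.smul_eq_denom_zpow (Curve.slash_discriminant γ), mul_pow, ← zpow_natCast (_ ^ (12 : ℤ)),
    ← zpow_mul, show ((12 * r : ℕ) : ℤ) = 12 * (r : ℤ) by push_cast; ring]
  exact mul_div_mul_left _ _ (zpow_ne_zero _ (denom_ne_zero _ _))

theorem act_divDisc_mem {Γ : Subgroup SL(2, ℤ)} {r : ℕ} {φ : Γ →* ℂˣ} {F : ℍ → ℂ}
    (hF : IsTwist Γ ((12 * r : ℕ) : ℤ) φ F) (γ : SL(2, ℤ)) :
    act γ (divDisc F r) ∈ regSub := by
  refine ⟨PSEMI.mdiff_act ?_ γ, r, ?_⟩
  · exact MDifferentiable.div hF.mdiff (Curve.mdiff_discriminant.pow r) fun τ =>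
      pow_ne_zero r (ModularForm.discriminant_ne_zero τ)
  have h2 := Asymptotics.IsBigO.mul (hF.bdd γ)
    (Asymptotics.IsBigO.pow Curve.isBoundedAtImInfty_qw_div_discriminant r)
  refine (h2.congr_left fun τ => ?_).congr_right fun τ => by simp
  rw [act_divDisc]
  show _ = qw 1 τ ^ r * _
  rw [div_pow]
  ring

omit [NeZero N] in
theorem divDisc_invariant {r : ℕ} {F : ℍ → ℂ}
    (hF : IsTwist (Gamma0 N) ((12 * r : ℕ) : ℤ) 1 F) :
    ∀ γ ∈ Gamma0 N, ∀ τ, divDisc F r (γ • τ) = divDisc F r τ := fun γ hγ τ => by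
  have h := congrFun (act_divDisc F r γ) τ
  rw [hF.slash ⟨γ, hγ⟩] at h
  simpa [divDisc] using! h

/-- The expansion of the quotient has algebraic coefficients. -/
theorem exists_series_divDisc {r : ℕ} {F : ℍ → ℂ}
    (hF : IsTwist (Gamma0 N) ((12 * r : ℕ) : ℤ) 1 F) {c : PowerSeries ℂ} (hc : HasExp 1 F c)
    (halg : ∀ e, IsAlgebraic ℚ (PowerSeries.coeff e c)) :
    ∃ s : LaurentSeries Qb, s ∈ jField Qb N ∧ HasLoc (qw 1) (divDisc F r) (lsC s) ∧
      lsC s * deltaSer 1 ^ r = HahnSeries.ofPowerSeries ℤ ℂ c := by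
  have hreg := act_divDisc_mem hF
  obtain ⟨S, hS⟩ := Flat.Kummer.exists_hasLoc_of_invariant (divDisc_invariant hF)
    (act_one (divDisc F r) ▸ hreg 1)
  have hprod := (hS.mul (Flat.Kummer.hasLoc_discriminant.pow r)).congr_fun
    (f₁ := F) fun τ => by
      simp only [Pi.mul_apply, Pi.pow_apply, divDisc]
      rw [div_mul_cancel₀ _ (pow_ne_zero r (ModularForm.discriminant_ne_zero τ))]
  have hδ : deltaSer 1 = HahnSeries.ofPowerSeries ℤ ℂ
      (PowerSeries.X * ModularCurve.dedekindEtaUnit.map (Int.castRingHom ℂ)) := by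
    rw [deltaSer]
    exact ModularCurve.qExpand_one_apply _
  have heq : S * deltaSer 1 ^ r = HahnSeries.ofPowerSeries ℤ ℂ c := by
    rw [hδ]
    exact hprod.unique (locCoord_qw one_pos) (Curve.Red.hasLoc_of_hasExp hc)
  set K := (lsC : LaurentSeries Qb →+* LaurentSeries ℂ).fieldRange
  have hcK : HahnSeries.ofPowerSeries ℤ ℂ c ∈ K := Flat.Kummer.ofPowerSeries_mem_range halg
  have hδK : deltaSer 1 ∈ K := by
    rw [hδ]
    refine Flat.Kummer.ofPowerSeries_mem_range fun e => ?_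
    rw [show
      (PowerSeries.X * ModularCurve.dedekindEtaUnit.map (Int.castRingHom ℂ) : PowerSeries ℂ) =
      (PowerSeries.X * ModularCurve.dedekindEtaUnit).map (Int.castRingHom ℂ) by
        rw [map_mul, PowerSeries.map_X], PowerSeries.coeff_map]
    exact isAlgebraic_intCast _
  have hδ0 : deltaSer 1 ^ r ≠ 0 := pow_ne_zero _ (Flat.Kummer.deltaSer_ne_zero 1)
  obtain ⟨s, rfl⟩ : S ∈ K := by
    rw [eq_div_of_mul_eq hδ0 heq]
    exact div_mem hcK (pow_mem hδK r)
  exact ⟨s, Mazur.mem_jField_of_invariant (divDisc_invariant hF) hreg hS, hS, heq⟩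

variable {M m : ℕ} [NeZero M] (haux : AuxLevel M m) (hNM : N ∣ M)

include hNM in
omit [NeZero N] [NeZero M] in
/-- For `N` dividing `M`, `Γ(M)` is contained in `Γ₀(N)`. -/
theorem gamma_le_gamma0 : Gamma M ≤ Gamma0 N := fun γ hγ => by
  rw [Gamma_mem] at hγ
  rw [Gamma0_mem, ZMod.intCast_zmod_eq_zero_iff_dvd]
  exact (Int.natCast_dvd_natCast.mpr hNM).trans
    ((ZMod.intCast_zmod_eq_zero_iff_dvd _ _).mp hγ.2.2.1)

omit [NeZero M] in
/-- `F / W^{6r}`, written with the unit. -/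
theorem div_auxW_eq (F : ℍ → ℂ) (r : ℕ) :
    (fun τ => F τ / auxW haux τ ^ (6 * r)) = divDisc F r * unitU haux ^ r := by
  funext τ
  simp only [Pi.mul_apply, Pi.pow_apply, divDisc, unitU, div_pow, ← pow_mul]
  have h1 := pow_ne_zero r (ModularForm.discriminant_ne_zero τ)
  field_simp

theorem divDisc_eq (F : ℍ → ℂ) (r : ℕ) :
    divDisc F r = (fun τ => F τ / auxW haux τ ^ (6 * r)) * (unitU haux)⁻¹ ^ r := by
  rw [div_auxW_eq, mul_assoc, ← mul_pow, show unitU haux * (unitU haux)⁻¹ = 1 from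
    funext fun τ => mul_inv_cancel₀ (unitU_ne_zero haux τ), one_pow, mul_one]

include haux hNM in
omit [NeZero N] in
theorem divDisc_mem_BSub {r : ℕ} {F : ℍ → ℂ}
    (hF : IsTwist (Gamma0 N) ((12 * r : ℕ) : ℤ) 1 F) : divDisc F r ∈ BSub M := by
  rw [divDisc_eq haux]
  refine mul_mem (ES.form_div_mem haux (gamma_le_gamma0 hNM) (j := 6 * r) ?_)
    (pow_mem (ES.inv_mem_BSub (unitU_mem_BSub haux) (unitU_ne_zero haux)) r)
  rwa [show 2 * (6 * r) = 12 * r by ring]

include hNM in
/-- Polynomials in the generators lie in `BSub M` with algebraic expansions everywhere. -/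
theorem evF_mem (P : JPoly Qb N) :
    evF Qb N P ∈ BSub M ∧ ∀ γ, lexp M γ (evF Qb N P) ∈
      (lsC : LaurentSeries Qb →+* LaurentSeries ℂ).fieldRange := by
  induction P using MvPolynomial.induction_on with
  | C a =>
    rw [evF, MvPolynomial.aeval_C]
    refine ⟨(BSub M).algebraMap_mem _, fun γ => ⟨HahnSeries.C a, ?_⟩⟩
    rw [show (algebraMap Qb (ℍ → ℂ) a) = fun _ => algebraMap Qb ℂ a from rfl,
      lexp_eq (HasLExp.const _)]
    ext i
    rw [ModularCurve.coeffMap_coeff, HahnSeries.C_apply, HahnSeries.C_apply,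
      HahnSeries.coeff_single, HahnSeries.coeff_single]
    split_ifs
    · rfl
    · exact map_zero _
  | add p p' hp hp' =>
    rw [map_add]
    exact ⟨add_mem hp.1 hp'.1, fun γ => by
      rw [Curve.Red.lexp_add hp.1 hp'.1]; exact add_mem (hp.2 γ) (hp'.2 γ)⟩
  | mul_X p d hp =>
    have hj := Curve.Red.jGenF_mem_BRing (N := N) (A := (⊤ : Subring ℂ))
      ES.zetaC_goodRoot_top hNM d
    have hX : evF Qb N (MvPolynomial.X d) = jGenF N d := by rw [evF, MvPolynomial.aeval_X]
    rw [map_mul, hX]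
    refine ⟨mul_mem hp.1 hj.1, fun γ => ?_⟩
    rw [Curve.Red.lexp_mul hp.1 hj.1]
    refine mul_mem (hp.2 γ) (Flat.Kummer.exists_map_eq fun i => ?_)
    obtain ⟨δ, a, e, m', b, _, _, c, hc, -, -, -, ⟨l, rfl⟩, h⟩ :=
      Curve.Red.exists_lexp_jGenF (M := M) hNM d γ
    rw [lexp_eq h]
    refine ES.exists_embC_eq ?_
    by_cases hd : ((a * m' : ℕ) : ℤ) ∣ i
    · obtain ⟨j, rfl⟩ := hd
      rw [ModularCurve.qExpand_coeff_mul, Curve.coeff_rotate,
        ModularCurve.coeff_jqModC_eq_intCast]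
      have hz : IsAlgebraic ℚ (zetaC M) := IsIntegral.isAlgebraic
        ((ES.zetaC_isPrimitiveRoot M).isIntegral (Nat.pos_of_ne_zero (NeZero.ne M))).tower_top
      refine IsAlgebraic.mul ?_ (isAlgebraic_intCast _)
      rw [← zpow_mul]
      rcases Int.eq_nat_or_neg (l * j) with ⟨o, ho | ho⟩
      · rw [ho, zpow_natCast]; exact hz.pow o
      · rw [ho, zpow_neg, zpow_natCast]; exact (hz.pow o).inv
    · rw [ModularCurve.qExpand_coeff_of_not_dvd _ _ hd]
      exact isAlgebraic_zero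

include haux hNM in
/-- All expansions of the quotient have algebraic coefficients. -/
theorem isAlgebraic_coeff_divDisc {r : ℕ} {F : ℍ → ℂ}
    (hF : IsTwist (Gamma0 N) ((12 * r : ℕ) : ℤ) 1 F) {s : LaurentSeries Qb}
    (hs : s ∈ jField Qb N) (hloc : HasLoc (qw 1) (divDisc F r) (lsC s)) (γ : SL(2, ℤ)) (i : ℤ) :
    IsAlgebraic ℚ ((lexp M γ (divDisc F r)).coeff i) := by
  obtain ⟨P, Q, hPQ⟩ := Curve.exists_eq_div Qb N (⟨s, hs⟩ : jField Qb N)
  have hmem := divDisc_mem_BSub haux hNM hF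
  set K := (lsC : LaurentSeries Qb →+* LaurentSeries ℂ).fieldRange
  have key : lexp M γ (divDisc F r) ∈ K := by
    by_cases hf : (⟨s, hs⟩ : jField Qb N) = 0
    · have h0 : divDisc F r = 0 := by
        have hs0 : lsC s = 0 := by
          rw [show s = 0 from congrArg Subtype.val hf, map_zero]
        rw [hs0] at hloc
        exact HasLoc.eq_zero (locCoord_qw one_pos) hloc
      rw [h0, lexp_eq HasLExp.zero]
      exact K.zero_mem
    · obtain ⟨P, Q, -, hQ0, hPQ⟩ := Flat.Kummer.exists_eq_div_ne_zero hf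
      have he := Flat.Kummer.mul_evF_eq (f := ⟨s, hs⟩) hloc hPQ
      have hP := evF_mem (M := M) hNM P
      have hQ := evF_mem (M := M) hNM Q
      have h := congrArg (lexp M γ) he
      rw [Curve.Red.lexp_mul hmem hQ.1] at h
      have hne : lexp M γ (evF Qb N Q) ≠ 0 := fun h0 => hQ0 (ES.lexp_injective hQ.1 (zero_mem _)
        (γ := γ) (h0.trans (lexp_eq HasLExp.zero).symm))
      rw [eq_div_of_mul_eq hne h]
      exact div_mem (hP.2 γ) (hQ.2 γ)
  obtain ⟨t, ht⟩ := key
  rw [← ht, ModularCurve.coeffMap_coeff]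
  exact (Algebra.IsAlgebraic.isAlgebraic (R := ℚ) (t.coeff i)).algHom embC

omit [NeZero N] in
/-- The expansion at width `M` of a function with an expansion at width one. -/
theorem lexp_one_of_hasLoc {f : ℍ → ℂ} {S : LaurentSeries ℂ} (h : HasLoc (qw 1) f S) :
    lexp M 1 f = qExpand ℂ M S :=
  lexp_eq (by rw [act_one]; exact Curve.Red.hasLExp_of_hasLoc_one h)

variable {q : ℕ} [Fact q.Prime] (P : CPlace q) (hM : M.Coprime q)

include haux hNM in
/-- The quotient has expansions in the algebraic integers of the place. -/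
theorem divDisc_mem_BRing {r : ℕ} {F : ℍ → ℂ}
    (hF : IsTwist (Gamma0 N) ((12 * r : ℕ) : ℤ) 1 F) {s : LaurentSeries Qb}
    (hs : s ∈ jField Qb N) (hloc : HasLoc (qw 1) (divDisc F r) (lsC s))
    (hint : ∀ i, algebraMap Qb ℂ (s.coeff i) ∈ P.ring) :
    divDisc F r ∈ BRing M (placeDat P hM).R := by
  have hmem := divDisc_mem_BSub haux hNM hF
  have hser : SerIn P.ring (lexp M 1 (divDisc F r)) := by
    rw [lexp_one_of_hasLoc hloc]
    refine Curve.Red.serIn_qExpand (fun i => ?_) M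
    rw [ModularCurve.coeffMap_coeff]
    exact hint i
  have hP := Curve.Red.mem_BRing_of_serIn P haux hM hmem hser
  exact ⟨hmem, fun γ i => (mem_placeDat P hM).2
    ⟨isAlgebraic_coeff_divDisc haux hNM hF hs hloc γ i, hP.2 γ i⟩⟩

end FermatAgent.BAD.Lift
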