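import Fermat.Agent.BAD.ResidualLift
import Fermat.Agent.BAD.Lift.Divisor
import Fermat.Agent.BAD.Lift.Clear
import Fermat.Agent.BAD.Lift.Root
import Fermat.Agent.BAD.Lift.Forms
import Fermat.Agent.Curve.Lift.Elliptic
import Fermat.Agent.Curve.Lift.Modular

/-!
# Residual classes lift

The proof of `exists_lift_of_dvd`: the `e0`-th power of the residual function of `F` has divisor
divisible by `n`, so it lifts to a function `g` with the same property (`exists_lift_modular`) whose
series has an `n`-th root (`exists_root_of_lift`). A polynomial in `j` clears its poles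
(`exists_clear`), the root of the product is a function with parabolic multiplier
(`exists_parabolic_root`), and powers of `Δ` make it and the polynomial forms (`exists_form_exp`).
-/

set_option autoImplicit false

open UpperHalfPlane hiding I
open CongruenceSubgroup (Gamma0)
open scoped MatrixGroups ModularForm Manifold
open ModularCurve (coeffMap modularFunctionFieldFullC jqModC)
open AlgebraicCurve (Place)

noncomputable section

namespace FermatAgent.BAD

open FermatAgent.ES (HasExp act IsTwist CPlace parGroup AuxLevel)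
open FermatAgent.Curve (HasLoc qw jField jElt toJField evF evL)
open FermatAgent.Flat.Kummer (deltaSer)
open FermatAgent.Mazur (lsC regSub)

attribute [local instance] Mazur.embAlg

local notation "Qb" => AlgebraicClosure ℚ

namespace Lift

/-- An integer prime to `q` is non-zero in the residue field at a place over `q`. -/
theorem natCast_residue_ne_zero {q n : ℕ} [Fact q.Prime] (hn : n.Coprime q)
    {A : ValuationSubring Qb} (hA : A.LiesOverPrime q) :
    (n : IsLocalRing.ResidueField A) ≠ 0 := by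
  intro h
  have hq0 : (q : IsLocalRing.ResidueField A) = 0 := by
    rw [← map_natCast (IsLocalRing.residue A), IsLocalRing.residue_eq_zero_iff,
      IsLocalRing.mem_maximalIdeal, mem_nonunits_iff, A.valuation_eq_one_iff]
    have h1 := ECLocal.valuation_natCast_lt_one hA
    intro h2
    rw [show (((q : A)) : Qb) = (q : Qb) from map_natCast A.subtype q] at h2
    exact h1.ne h2
  obtain ⟨u, w, huw⟩ := Nat.isCoprime_iff_coprime.2 hn
  have h1 := congrArg (Int.cast (R := IsLocalRing.ResidueField A)) huw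
  push_cast at h1
  rw [h, hq0, mul_zero, mul_zero, add_zero] at h1
  exact zero_ne_one h1

/-- Roots of integral series with unit lowest coefficient. -/
theorem exists_root_laurent (A : ValuationSubring Qb) {n : ℕ} [NeZero n] (hnA : IsUnit (n : A))
    {s : LaurentSeries A} {l : ℤ} (hl : (n : ℤ) ∣ l) (hlow : ∀ i < l, s.coeff i = 0)
    (hu : IsUnit (s.coeff l)) : ∃ w : LaurentSeries A, w ^ n = s := by
  obtain ⟨l', rfl⟩ := hl
  have hn : 0 < n := Nat.pos_of_ne_zero (NeZero.ne n)
  set p : PowerSeries A := PowerSeries.mk fun i => s.coeff ((n : ℤ) * l' + i)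
  have hp0 : PowerSeries.constantCoeff p = s.coeff ((n : ℤ) * l') := by
    rw [← PowerSeries.coeff_zero_eq_constantCoeff_apply, PowerSeries.coeff_mk, Nat.cast_zero,
      add_zero]
  have hs : s = HahnSeries.single ((n : ℤ) * l') 1 * HahnSeries.ofPowerSeries ℤ A p := by
    ext i
    rw [show i = (i - (n : ℤ) * l') + (n : ℤ) * l' by ring, HahnSeries.coeff_single_mul_add,
      one_mul]
    by_cases hi : (n : ℤ) * l' ≤ i
    · obtain ⟨j, hj⟩ := Int.eq_ofNat_of_zero_le (sub_nonneg.2 hi)
      rw [hj, HahnSeries.ofPowerSeries_apply_coeff, PowerSeries.coeff_mk, add_comm]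
    · rw [hlow _ (by omega)]
      rw [PowerSeries.coeff_coe, if_pos (by omega)]
  obtain ⟨c, hc⟩ := hu
  obtain ⟨b, hb⟩ := IsAlgClosed.exists_pow_nat_eq ((c : A) : Qb) hn
  have hbA : b ∈ A := by
    rcases A.mem_or_inv_mem b with h | h
    · exact h
    rcases eq_or_ne b 0 with rfl | hb0
    · exact A.zero_mem
    · have e : b = b ^ n * b⁻¹ ^ (n - 1) := by
        obtain ⟨m, rfl⟩ : ∃ m, n = m + 1 := ⟨n - 1, by omega⟩
        rw [Nat.add_sub_cancel, pow_succ, mul_right_comm, ← mul_pow, mul_inv_cancel₀ hb0, one_pow,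
          one_mul]
      rw [e, hb]
      exact mul_mem (c : A).2 (pow_mem h _)
  obtain ⟨v, hv⟩ := hnA.exists_right_inv
  obtain ⟨w, hw⟩ := ES.exists_series_root
    (u := PowerSeries.C ((c⁻¹ : Aˣ) : A) * p) (n := n) (v := v)
    (by rw [map_mul, PowerSeries.constantCoeff_C, hp0, ← hc, Units.inv_mul]) hv
  refine ⟨HahnSeries.single l' 1 *
    HahnSeries.ofPowerSeries ℤ A (PowerSeries.C (⟨b, hbA⟩ : A) * w), ?_⟩
  have hcb : (⟨b, hbA⟩ : A) ^ n = c := Subtype.ext (by rw [SubmonoidClass.coe_pow]; exact hb)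
  have e : (PowerSeries.C (⟨b, hbA⟩ : A) * w) ^ n = p := by
    rw [mul_pow, ← map_pow, hcb, hw, ← mul_assoc, ← map_mul, Units.mul_inv, map_one, one_mul]
  rw [hs, mul_pow, HahnSeries.single_pow, one_pow, nsmul_eq_mul, ← map_pow, e]

variable {N : ℕ} [NeZero N]

/-- The expansion of `j`. -/
theorem coe_jElt : (jElt Qb N : LaurentSeries Qb) = jqModC Qb := by
  rw [jElt, Curve.coe_toJField]
  show MvPolynomial.aeval (Curve.jGenL Qb N) (MvPolynomial.X (Curve.JIdx.one N)) = _
  rw [MvPolynomial.aeval_X]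
  exact ModularCurve.qExpand_one_apply _

theorem exists_poly_series {A : ValuationSubring Qb} (R : Polynomial A)
    (hR : R.map (IsLocalRing.residue A) ≠ 0) :
    ∃ ρ : LaurentSeries A, coeffMap A.subtype ρ =
        (Polynomial.aeval (jElt Qb N) (R.map A.subtype) : jField Qb N) ∧
      coeffMap (IsLocalRing.residue A) ρ ≠ 0 := by
  have key : ∀ {S : Type} [CommRing S] (f : A →+* S),
      coeffMap f (R.eval₂ HahnSeries.C (jqModC A)) =
        (R.map f).eval₂ HahnSeries.C (jqModC S) := fun f => by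
    rw [Polynomial.hom_eval₂, Polynomial.eval₂_map, ModularCurve.coeffMap_jqModC]
    congr 1
    refine RingHom.ext fun a => ?_
    rw [RingHom.comp_apply, RingHom.comp_apply, HahnSeries.C_apply, HahnSeries.C_apply,
      ModularCurve.coeffMap_single]
  refine ⟨R.eval₂ HahnSeries.C (jqModC A), ?_, ?_⟩
  · rw [key]
    rw [← IntermediateField.coe_val, ← Polynomial.aeval_algHom_apply, IntermediateField.coe_val,
      coe_jElt, Polynomial.aeval_def]
    congr 1
    exact RingHom.ext fun a => by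
      rw [HahnSeries.C_apply, ModularCurve.algebraMap_laurentSeries_eq_single]
  · rw [key]
    intro h
    exact hR (Curve.Red.eq_zero_of_eval₂_of_neg (d := -1) (by norm_num)
      (by rw [ModularCurve.coeff_jqModC_neg_one]; exact one_ne_zero) _ h)

/-- The series of a polynomial in `j` is the expansion of an evaluated polynomial in `j`. -/
private theorem exists_poly_loc {q : ℕ} [Fact q.Prime] (P : CPlace q) (R : Polynomial P.algVal)
    {ρ : LaurentSeries P.algVal} (hρ : coeffMap P.algVal.subtype ρ =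
      (Polynomial.aeval (jElt Qb N) (R.map P.algVal.subtype) : jField Qb N)) :
    ∃ RD : Curve.JPoly Qb N, HasLoc (qw 1) (evF Qb N RD) (toC P ρ) := by
  set RD : Curve.JPoly Qb N :=
    Polynomial.aeval (MvPolynomial.X (Curve.JIdx.one N)) (R.map P.algVal.subtype) with hRD
  have hev : toJField Qb N RD = Polynomial.aeval (jElt Qb N) (R.map P.algVal.subtype) := by
    rw [hRD, ← Polynomial.aeval_algHom_apply]
    rfl
  refine ⟨RD, ?_⟩
  have h := Curve.hasLoc_evF Qb N RD
  rw [← Curve.coe_toJField, hev, ← hρ] at h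
  exact h

/-- A lift with the order of its residue and divisor divisible by `n` has an integral root. -/
private theorem exists_root_of_lift {A : ValuationSubring Qb} {n : ℕ} [NeZero n]
    (hn : (n : IsLocalRing.ResidueField A) ≠ 0) {s : LaurentSeries A} {g : jField Qb N}
    {b : LaurentSeries (IsLocalRing.ResidueField A)}
    (hsg : coeffMap A.subtype s = (g : LaurentSeries Qb))
    (hres : coeffMap (IsLocalRing.residue A) s = b) (hb : b ≠ 0)
    (hord : (g : LaurentSeries Qb).order = b.order)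
    (hdiv : ∀ P : Place Qb (jField Qb N), (n : ℤ) ∣ P.ord g) :
    g ≠ 0 ∧ ∃ w : LaurentSeries A, w ^ n = s := by
  set l := b.order
  have hlead : IsUnit (s.coeff l) := by
    rw [← not_not (a := IsUnit _), ← mem_nonunits_iff, ← IsLocalRing.mem_maximalIdeal,
      ← IsLocalRing.residue_eq_zero_iff, ← ModularCurve.coeffMap_coeff, hres,
      HahnSeries.coeff_order_eq_zero]
    exact hb
  have hg0 : g ≠ 0 := fun h => by
    have h1 := congrArg (fun s : LaurentSeries Qb => s.coeff l) hsg
    rw [h] at h1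
    exact hlead.ne_zero (Subtype.ext (by simpa using h1))
  obtain ⟨P0, hP0⟩ := Curve.exists_place_order (E := jField Qb N) (x := jElt Qb N)
    (by rw [coe_jElt, Curve.Red.order_jqModC])
  have hnl : (n : ℤ) ∣ l := by
    have h := hdiv P0
    rwa [hP0, hord] at h
  have hlow : ∀ i < l, s.coeff i = 0 := fun i hi => by
    have h1 := congrArg (fun s : LaurentSeries Qb => s.coeff i) hsg
    simp only [ModularCurve.coeffMap_coeff] at h1
    rw [HahnSeries.coeff_eq_zero_of_lt_order (x := (g : LaurentSeries Qb)) (hord.symm ▸ hi)] at h1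
    exact Subtype.ext h1
  have hnA : IsUnit (n : A) := by
    rw [← not_not (a := IsUnit _), ← mem_nonunits_iff, ← IsLocalRing.mem_maximalIdeal,
      ← IsLocalRing.residue_eq_zero_iff, map_natCast]
    exact hn
  exact ⟨hg0, exists_root_laurent A hnA hnl hlow hlead⟩

omit [NeZero N] in
/-- A function with multiplier and integral series, times a power of `Δ`, is a form with integral
expansion. -/
private theorem exists_form_exp {q : ℕ} [Fact q.Prime] (P : CPlace q) {φ : Gamma0 N →* ℂˣ}
    (hT : φ ⟨ModularGroup.T, Flat.Kummer.T_mem_Gamma0⟩ = 1) {f : ℍ → ℂ} (hf : MDiff f)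
    (hm : ∀ γ : Gamma0 N, ∀ τ, f ((γ : SL(2, ℤ)) • τ) = φ γ * f τ) {J : ℕ}
    (hJ : ∀ k, IsBoundedAtImInfty fun τ => qw 1 τ ^ J * act k f τ) {E : ℕ} (hE : J ≤ E)
    {s : LaurentSeries P.algVal} (hloc : HasLoc (qw 1) f (toC P s)) :
    IsTwist (Gamma0 N) ((12 * E : ℕ) : ℤ) φ (fun τ => f τ * ModularForm.discriminant τ ^ E) ∧
      ∃ cf : PowerSeries P.algVal,
        HasExp 1 (fun τ => f τ * ModularForm.discriminant τ ^ E)
          ((cf.map (resIncl P)).map P.ring.subtype) ∧
        HahnSeries.ofPowerSeries ℤ _ cf =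
          s * HahnSeries.ofPowerSeries ℤ P.algVal (deltaPS P.algVal) ^ E := by
  have h := isTwist_mul_disc hf hm hJ hE
  have hδ : toC P (HahnSeries.ofPowerSeries ℤ _ (deltaPS P.algVal)) =
      HahnSeries.ofPowerSeries ℤ ℂ (deltaPS ℂ) := by
    rw [toC_ofPowerSeries, map_deltaPS, map_deltaPS]
  refine ⟨h, exists_integral_exp P h.mdiff ?_ (fun τ => ?_) ?_⟩
  · have h1 := h.bdd 1
    rwa [SlashAction.slash_one] at h1
  · rw [disc_periodic, ← modular_T_smul, hm ⟨_, Flat.Kummer.T_mem_Gamma0⟩, hT, Units.val_one,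
      one_mul]
  · rw [map_mul, map_pow, hδ]
    exact hloc.mul (Flat.Kummer.hasLoc_discriminant.pow E)

/-- The `n`-th power relation between the reductions of two cleared series. -/
private theorem map_pow_eq_of_cleared {A k : Type*} [CommRing A] [CommRing k] (π : A →+* k)
    {n a e0 J : ℕ} {w ρ sA s' δ : LaurentSeries A} {cA cv cD : PowerSeries A} (hw : w ^ n = s')
    (hs : coeffMap π s' = coeffMap π sA ^ e0)
    (hA : HahnSeries.ofPowerSeries ℤ A cA = sA * δ ^ (n * a))
    (hv : HahnSeries.ofPowerSeries ℤ A cv = w * ρ * δ ^ (e0 * a + J))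
    (hD : HahnSeries.ofPowerSeries ℤ A cD = ρ * δ ^ J) :
    (cv ^ n).map π = (cA ^ e0 * cD ^ n).map π := by
  refine HahnSeries.ofPowerSeries_injective (Γ := ℤ) ?_
  rw [← ModularCurve.coeffMap_ofPowerSeries, ← ModularCurve.coeffMap_ofPowerSeries]
  simp only [map_mul (HahnSeries.ofPowerSeries ℤ A), map_pow (HahnSeries.ofPowerSeries ℤ A), hA,
    hv, hD]
  rw [show (w * ρ * δ ^ (e0 * a + J)) ^ n = s' * (δ ^ (e0 * (n * a)) * (ρ * δ ^ J) ^ n) by
    rw [← hw]; ring]
  simp only [map_mul, map_pow, hs]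
  ring

/-- The reduction of a series nonzero modulo the maximal ideal times a power of `Δ` is nonzero. -/
private theorem map_ne_zero_of_eq_mul_delta {A k : Type*} [CommRing A] [Field k] (π : A →+* k)
    {J : ℕ} {ρ : LaurentSeries A} (hρ : coeffMap π ρ ≠ 0) {cD : PowerSeries A}
    (hD : HahnSeries.ofPowerSeries ℤ A cD = ρ * HahnSeries.ofPowerSeries ℤ A (deltaPS A) ^ J) :
    cD.map π ≠ 0 := by
  intro h
  have h1 : coeffMap π (ρ * HahnSeries.ofPowerSeries ℤ A (deltaPS A) ^ J) = 0 := by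
    rw [← hD, ModularCurve.coeffMap_ofPowerSeries, h, map_zero]
  rw [map_mul, map_pow, ModularCurve.coeffMap_ofPowerSeries, map_deltaPS] at h1
  exact mul_ne_zero hρ (pow_ne_zero _ ((map_ne_zero_iff _
    HahnSeries.ofPowerSeries_injective).2 (deltaPS_ne_zero _))) h1

end Lift

open Lift

/-- **Residual classes lift up to an exponent bounding the denominators of the residual
divisor.** -/
theorem Lift.exists_lift_of_dvd {q : ℕ} [Fact q.Prime] (Φ : ℂ ≃+* PadicAlgCl q) {N n a e0 : ℕ}
    [NeZero N] [NeZero n] (hqN : ¬ q ∣ N) (hnq : n.Coprime q)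
    {F : ℍ → ℂ} {c : PowerSeries (CPlace.ofEquiv Φ).ring}
    (hF : IsTwist (Gamma0 N) ((12 * (n * a) : ℕ) : ℤ) 1 F)
    (hc : HasExp 1 F (c.map (CPlace.ofEquiv Φ).ring.subtype))
    (halg : ∀ e, IsAlgebraic ℚ ((PowerSeries.coeff e c : (CPlace.ofEquiv Φ).ring) : ℂ))
    (hcres : c.map (CPlace.ofEquiv Φ).res ≠ 0)
    (hdiv : ∀ (sA : LaurentSeries (CPlace.ofEquiv Φ).algVal)
      (gb : modularFunctionFieldFullC (IsLocalRing.ResidueField (CPlace.ofEquiv Φ).algVal) N),
      coeffMap (CPlace.ofEquiv Φ).algVal.subtype sA ∈ jField Qb N →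
      HasLoc (qw 1) (divDisc F (n * a)) (toC (CPlace.ofEquiv Φ) sA) →
      coeffMap (IsLocalRing.residue (CPlace.ofEquiv Φ).algVal) sA = gb → gb ≠ 0 →
      ∀ Q : Place (IsLocalRing.ResidueField (CPlace.ofEquiv Φ).algVal)
        (modularFunctionFieldFullC (IsLocalRing.ResidueField (CPlace.ofEquiv Φ).algVal) N),
        (n : ℤ) ∣ e0 * Q.ord gb) :
    LiftsResidual Φ N n a e0 c := by
  set P := CPlace.ofEquiv Φ
  obtain ⟨sA, cA, gb, hsA, hloc, hcA, hrel, hgb, hgb0⟩ :=
    exists_residual_function P hqN hF hc halg hcres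
  have hA := P.algVal_liesOverPrime
  have := isAlgClosed_residueField P.algVal
  have := Curve.Red.isFF_fullC hA hqN
  have hnk := natCast_residue_ne_zero hnq hA
  obtain ⟨s', g, hs'g, hs'res, -, hgord, hgdiv⟩ :=
    Curve.Red.exists_lift_modular hA hqN (jField Qb N) rfl hnk (gb := gb ^ e0)
      (pow_ne_zero e0 hgb0) fun Q => by
        rw [Curve.ord_pow]
        exact_mod_cast hdiv sA gb hsA hloc hgb hgb0 Q
  obtain ⟨hg0, w, hw⟩ := exists_root_of_lift hnk hs'g hs'res
    (fun h => pow_ne_zero e0 hgb0 (Subtype.ext h)) hgord hgdiv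
  obtain ⟨R, D, hR, hf', hdiv', hpos⟩ := exists_clear P.algVal hg0 hgdiv
  obtain ⟨ρ, hρ, hρres⟩ := exists_poly_series (N := N) R hR
  obtain ⟨RD, hRloc⟩ := exists_poly_loc P R hρ
  have hW : toC P (w * ρ) ^ n = lsC (((g * Polynomial.aeval (jElt Qb N)
      (R.map P.algVal.subtype) ^ n : jField Qb N)) : LaurentSeries Qb) := by
    rw [toC, RingHom.comp_apply, ← map_pow, ← map_pow, mul_pow, map_mul, hw, hs'g, map_pow, hρ,
      MulMemClass.coe_mul, SubmonoidClass.coe_pow]
  obtain ⟨ψ, g1, hg1, hg1m, hg1reg, hg1loc⟩ := exists_parabolic_root hf' hdiv' hpos hW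
  have hRm : ∀ γ : Gamma0 N, ∀ τ, evF Qb N RD ((γ : SL(2, ℤ)) • τ) =
      (((1 : Gamma0 N →* ℂˣ) γ : ℂˣ) : ℂ) * evF Qb N RD τ := fun γ τ => by
    rw [Curve.evF_gamma0 γ.2, MonoidHom.one_apply, Units.val_one, one_mul]
  obtain ⟨J1, hJ1⟩ := exists_pole_bound hg1m hg1reg
  obtain ⟨J2, hJ2⟩ := exists_pole_bound hRm fun k => Flat.Kummer.evF_act_mem_regSub RD k
  set J := J1 + J2
  set E := e0 * a + J
  have hψT : (ψ : Gamma0 N →* ℂˣ) ⟨_, Flat.Kummer.T_mem_Gamma0⟩ = 1 := ψ.2.2 ⟨_, _⟩ (by
    show (((ModularGroup.T : SL(2, ℤ))) : Matrix (Fin 2) (Fin 2) ℤ).trace ^ 2 = 4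
    simp [ModularGroup.coe_T, Matrix.trace_fin_two])
  obtain ⟨hv, cv, hcv, hcveq⟩ :=
    exists_form_exp P hψT hg1 hg1m hJ1 (show J1 ≤ E by omega) hg1loc
  obtain ⟨hD, cD, hcD, hcDeq⟩ := exists_form_exp P (φ := 1) rfl (Flat.Kummer.mdiff_evF RD) hRm hJ2
    (show J2 ≤ J by omega) hRloc
  have hres : (cv ^ n).map (IsLocalRing.residue P.algVal) =
      (cA ^ e0 * cD ^ n).map (IsLocalRing.residue P.algVal) :=
    map_pow_eq_of_cleared _ hw (by rw [hs'res, hgb, SubmonoidClass.coe_pow]) hrel.symm hcveq hcDeq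
  refine ⟨6 * E, 6 * J, ψ, _, _, cv.map (resIncl P), cD.map (resIncl P), ?_, ?_, ?_, hcv, hcD,
    ?_, ?_⟩
  · simp only [E]; ring
  · rw [show ((2 * (6 * E) : ℕ) : ℤ) = ((12 * E : ℕ) : ℤ) by push_cast; ring]
    exact hv
  · rw [show ((2 * (6 * J) : ℕ) : ℤ) = ((12 * J : ℕ) : ℤ) by push_cast; ring]
    exact hD
  · rw [Ne, map_res_eq_zero_iff]
    exact map_ne_zero_of_eq_mul_delta _ hρres hcDeq
  · have h := map_res_eq_of_residue_eq P hres
    rw [map_pow, map_pow, map_mul, map_mul, map_pow, map_pow, map_pow, map_pow, hcA] at h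
    exact h

section ResidualLift

variable {q : ℕ} [Fact q.Prime] (Φ : ℂ ≃+* PadicAlgCl q) {N M m : ℕ} [NeZero N] [NeZero M]
  (hNM : N ∣ M) (hM : M.Coprime q)

include hNM in
/-- **Residual classes lift up to twelve.** -/
theorem residualLift (haux : AuxLevel M m) : ResidualLift Φ N haux hM 12 := by
  intro n a _ hnq F c hF hc halg hcres hcusp hdisc
  have hwt : ((2 * (6 * n * a) : ℕ) : ℤ) = ((12 * (n * a) : ℕ) : ℤ) := by push_cast; ring
  rw [hwt] at hF
  simp only [hwt] at hcusp
  rw [show 6 * n * a = 6 * (n * a) from mul_assoc 6 n a] at hdisc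
  exact exists_lift_of_dvd Φ (fun h => not_dvd_of_coprime hM (h.trans hNM)) hnq hF hc halg hcres
    fun sA gb hsA hloc hgb hgb0 => dvd_twelve_ord_residual (CPlace.ofEquiv Φ) haux hNM hM hF hsA
      hloc hgb hgb0 (dvd_mul_right n a) hcusp hdisc

include hNM in
/-- **Residual classes lift up to four** at level divisible by a prime `r ≡ 2 mod 3`: such a level
has no elliptic points of order three. -/
theorem residualLift_four (haux : AuxLevel M 3) {r : ℕ} (hr : r.Prime) (hr3 : r % 3 = 2)
    (hrN : r ∣ N) : ResidualLift Φ N haux hM 4 := by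
  intro n a _ hnq F c hF hc halg hcres hcusp hdisc
  have hwt : ((2 * (6 * n * a) : ℕ) : ℤ) = ((12 * (n * a) : ℕ) : ℤ) := by push_cast; ring
  rw [hwt] at hF
  simp only [hwt] at hcusp
  rw [show 6 * n * a = 6 * (n * a) from mul_assoc 6 n a] at hdisc
  have hqN : ¬ q ∣ N := fun h => not_dvd_of_coprime hM (h.trans hNM)
  refine exists_lift_of_dvd Φ hqN hnq hF hc halg hcres fun sA gb hsA hloc hgb hgb0 Q => ?_
  have := isAlgClosed_residueField (CPlace.ofEquiv Φ).algVal
  have := Curve.Red.isFF_fullC (CPlace.ofEquiv Φ).algVal_liesOverPrime hqN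
  obtain ⟨h1, h2⟩ := residual_order_hyps (CPlace.ofEquiv Φ) haux hNM hM hF hsA hloc hgb hgb0
    (dvd_mul_right n a) hcusp hdisc
  exact_mod_cast (placeDat (CPlace.ofEquiv Φ) hM).dvd_four_ord
    (finrank_residual_le (CPlace.ofEquiv Φ) hNM hM) haux (intClosed_placeDat (CPlace.ofEquiv Φ) hM)
    hNM hr hr3 hrN hgb0 (redHom_divDisc (CPlace.ofEquiv Φ) haux hNM hM hF hsA hloc hgb) h1 h2 Q

end ResidualLift

end FermatAgent.BAD
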